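import Mathlib.NumberTheory.Padics.RingHoms
import Fermat.Prelude.Def_GaloisRep_LocalConditions
import Fermat.Prelude.Def_EllipticCurve_FrobeniusTrace
import Fermat.Agent.ECTorsion.Galois
import Fermat.Agent.ECTorsion.Count
import Fermat.Agent.ECTorsion.Structure

/-!
# The Tate module of an integral Weierstrass curve as an adic Galois representation

`tateRep W hΔ p : GaloisRepAdic ℤ_[p]`, with the equivariant projections `proj W p n` onto the
`p ^ n`-torsion points (surjective, with kernel `p ^ n • T`).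
-/

set_option autoImplicit false

noncomputable section

namespace Fermat.Agent.CurveTate

open WeierstrassCurve WeierstrassCurve.Affine
open scoped WeierstrassCurve.Affine

local notation "Qb" => AlgebraicClosure ℚ
local notation "GQ" => (AlgebraicClosure ℚ ≃ₐ[ℚ] AlgebraicClosure ℚ)

/-- The `ℚ̄`-points of an integral curve. -/
abbrev Pts (W : WeierstrassCurve ℤ) : Type :=
  ((W.map (Int.castRingHom ℚ))⁄(AlgebraicClosure ℚ)).Point

/-- The `N`-torsion points. -/
abbrev Tors (W : WeierstrassCurve ℤ) (N : ℕ) :=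
  Submodule.torsionBy ℤ ((W.map (Int.castRingHom ℚ))⁄(AlgebraicClosure ℚ)).Point (N : ℤ)

variable (W : WeierstrassCurve ℤ) (p : ℕ)

/-- Compatible systems of `p`-power torsion points. -/
def tateModule (W : WeierstrassCurve ℤ) (p : ℕ) : AddSubgroup (ℕ → Pts W) where
  carrier := {f | f 0 = 0 ∧ ∀ n, p • f (n + 1) = f n}
  zero_mem' := ⟨rfl, fun n => nsmul_zero p⟩
  add_mem' := fun {f g} hf hg =>
    ⟨by simp [hf.1, hg.1], fun n => by simp [nsmul_add, hf.2 n, hg.2 n]⟩
  neg_mem' := fun {f} hf => ⟨by simp [hf.1], fun n => by simp [neg_nsmul, hf.2 n]⟩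

variable {W p}

theorem tate_zero (f : tateModule W p) : (f : ℕ → Pts W) 0 = 0 := f.2.1

theorem tate_succ (f : tateModule W p) (n : ℕ) :
    p • (f : ℕ → Pts W) (n + 1) = (f : ℕ → Pts W) n := f.2.2 n

theorem tate_pow_smul (f : tateModule W p) (n k : ℕ) :
    p ^ k • (f : ℕ → Pts W) (n + k) = (f : ℕ → Pts W) n := by
  induction k with
  | zero => simp
  | succ k ih => rw [pow_succ, mul_smul, ← add_assoc, tate_succ, ih]

theorem pow_smul_tate_eq_zero (f : tateModule W p) (n : ℕ) :
    p ^ n • (f : ℕ → Pts W) n = 0 := by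
  simpa [tate_zero] using tate_pow_smul f 0 n

theorem tate_ext {f g : tateModule W p} (h : ∀ n, (f : ℕ → Pts W) n = (g : ℕ → Pts W) n) :
    f = g :=
  Subtype.ext (funext h)

theorem nsmul_tate_congr (f : tateModule W p) (n : ℕ) {a b : ℕ}
    (h : (a : ZMod (p ^ n)) = b) : a • (f : ℕ → Pts W) n = b • (f : ℕ → Pts W) n := by
  refine nsmul_eq_nsmul_iff_modEq.mpr (((ZMod.natCast_eq_natCast_iff _ _ _).mp h).of_dvd ?_)
  exact addOrderOf_dvd_of_nsmul_eq_zero (pow_smul_tate_eq_zero f n)

section Padic

variable [Fact p.Prime]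

theorem toZModPow_appr (z : ℤ_[p]) (n : ℕ) :
    PadicInt.toZModPow n z = (z.appr n : ZMod (p ^ n)) := rfl

instance : SMul ℤ_[p] (tateModule W p) where
  smul z f := ⟨fun n => z.appr n • (f : ℕ → Pts W) n, by
    refine ⟨by simp [tate_zero], fun n => ?_⟩
    show p • z.appr (n + 1) • (f : ℕ → Pts W) (n + 1) = z.appr n • (f : ℕ → Pts W) n
    rw [smul_comm, tate_succ]
    refine nsmul_tate_congr f n ?_
    rw [← toZModPow_appr z n, ← PadicInt.zmod_cast_comp_toZModPow n (n + 1) (Nat.le_succ n),
      RingHom.comp_apply, toZModPow_appr, ZMod.castHom_apply]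
    simp [ZMod.cast_natCast (pow_dvd_pow p (Nat.le_succ n))]⟩

theorem smul_tate_apply (z : ℤ_[p]) (f : tateModule W p) (n : ℕ) :
    ((z • f : tateModule W p) : ℕ → Pts W) n = z.appr n • (f : ℕ → Pts W) n := rfl

theorem smul_tate_apply_of_eq {z : ℤ_[p]} {n a : ℕ} (f : tateModule W p)
    (h : PadicInt.toZModPow n z = (a : ZMod (p ^ n))) :
    ((z • f : tateModule W p) : ℕ → Pts W) n = a • (f : ℕ → Pts W) n := by
  rw [smul_tate_apply]
  exact nsmul_tate_congr f n (by rw [← toZModPow_appr]; exact h)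

instance : Module ℤ_[p] (tateModule W p) where
  one_smul f := tate_ext fun n => by
    rw [smul_tate_apply_of_eq f (a := 1) (by simp), one_smul]
  mul_smul z w f := tate_ext fun n => by
    rw [smul_tate_apply_of_eq f (a := z.appr n * w.appr n)
      (by rw [map_mul, toZModPow_appr, toZModPow_appr, Nat.cast_mul]),
      smul_tate_apply, smul_tate_apply, mul_smul]
  smul_zero z := tate_ext fun n => nsmul_zero _
  smul_add z f g := tate_ext fun n => nsmul_add _ _ _
  add_smul z w f := tate_ext fun n => by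
    rw [smul_tate_apply_of_eq f (a := z.appr n + w.appr n)
      (by rw [map_add, toZModPow_appr, toZModPow_appr, Nat.cast_add]),
      add_smul]
    rfl
  zero_smul f := tate_ext fun n => by
    rw [smul_tate_apply_of_eq f (a := 0) (by simp), zero_nsmul]
    rfl

variable (W p) in
/-- Projection to the `p ^ n`-torsion points. -/
def proj (n : ℕ) : tateModule W p →+ Tors W (p ^ n) where
  toFun f := ⟨(f : ℕ → Pts W) n, by
    rw [Submodule.mem_torsionBy_iff, natCast_zsmul]
    exact pow_smul_tate_eq_zero f n⟩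
  map_zero' := rfl
  map_add' _ _ := rfl

omit [Fact p.Prime] in
@[simp] theorem coe_proj (n : ℕ) (f : tateModule W p) :
    ((proj W p n f : Tors W (p ^ n)) : Pts W) = (f : ℕ → Pts W) n := rfl

theorem proj_smul (n : ℕ) (z : ℤ_[p]) (f : tateModule W p) :
    proj W p n (z • f) = PadicInt.toZModPow n z • proj W p n f := by
  apply Subtype.ext
  rw [toZModPow_appr, Nat.cast_smul_eq_nsmul]
  rfl

end Padic

/-! ### The Galois action -/

theorem galois_nsmul (σ : GQ) (m : ℕ) (P : Pts W) : σ • (m • P) = m • (σ • P) :=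
  map_nsmul (DistribSMul.toAddMonoidHom (Pts W) σ) m P

instance : SMul GQ (tateModule W p) where
  smul σ f := ⟨fun n => σ • (f : ℕ → Pts W) n, by
    refine ⟨by
        show σ • (f : ℕ → Pts W) 0 = 0
        rw [tate_zero]; exact map_zero (DistribSMul.toAddMonoidHom (Pts W) σ),
      fun n => ?_⟩
    show p • σ • (f : ℕ → Pts W) (n + 1) = σ • (f : ℕ → Pts W) n
    rw [← galois_nsmul, tate_succ]⟩

instance : DistribMulAction GQ (tateModule W p) where
  one_smul _ := tate_ext fun _ => one_smul GQ _
  mul_smul σ τ _ := tate_ext fun _ => mul_smul σ τ _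
  smul_zero σ := tate_ext fun _ => map_zero (DistribSMul.toAddMonoidHom (Pts W) σ)
  smul_add σ f g := tate_ext fun n =>
    smul_add σ ((f : ℕ → Pts W) n) ((g : ℕ → Pts W) n)

instance [Fact p.Prime] : SMulCommClass GQ ℤ_[p] (tateModule W p) where
  smul_comm σ _ _ := tate_ext fun _ => galois_nsmul σ _ _

/-! ### Divisibility and lifts -/

theorem isElliptic_Qbar (hΔ : W.Δ ≠ 0) :
    ((W.map (Int.castRingHom ℚ))⁄(AlgebraicClosure ℚ)).IsElliptic :=
  ECTorsion.isElliptic_baseChange _ (by simpa [WeierstrassCurve.map_Δ] using hΔ)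

theorem exists_nsmul_eq (hΔ : W.Δ ≠ 0) {n : ℕ} (hn : n ≠ 0) (P : Pts W) :
    ∃ Q : Pts W, n • Q = P :=
  haveI := isElliptic_Qbar hΔ
  ECTorsion.nsmul_surjective ((W.map (Int.castRingHom ℚ))⁄(AlgebraicClosure ℚ)) hn P

/-- Every `p ^ n`-torsion point extends to a compatible system. -/
theorem exists_tate_apply_eq (hΔ : W.Δ ≠ 0) (hp : p ≠ 0) (n : ℕ) (P : Pts W)
    (hP : p ^ n • P = 0) : ∃ f : tateModule W p, (f : ℕ → Pts W) n = P := by
  choose d hd using exists_nsmul_eq (W := W) hΔ hp
  let up : ℕ → Pts W := fun k => d^[k] P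
  have hup : ∀ k, p • up (k + 1) = up k := fun k => by
    simp only [up, Function.iterate_succ_apply', hd]
  refine ⟨⟨fun k => if n ≤ k then up (k - n) else p ^ (n - k) • P, ?_, fun k => ?_⟩, by simp [up]⟩
  · show (if n ≤ 0 then up (0 - n) else p ^ (n - 0) • P) = 0
    split_ifs with h
    · obtain rfl : n = 0 := Nat.le_zero.mp h
      simpa [up] using hP
    · simpa using hP
  · show p • (if n ≤ k + 1 then up (k + 1 - n) else p ^ (n - (k + 1)) • P) =
      if n ≤ k then up (k - n) else p ^ (n - k) • P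
    by_cases h1 : n ≤ k
    · rw [if_pos (by omega), if_pos h1, Nat.succ_sub h1, hup]
    · rw [if_neg h1]
      by_cases h2 : n = k + 1
      · subst h2
        simp [up]
      · rw [if_neg (by omega), ← mul_smul, ← pow_succ']
        congr 2
        omega

variable [Fact p.Prime]

/-- The projections to the torsion points are surjective. -/
theorem proj_surjective (hΔ : W.Δ ≠ 0) (n : ℕ) : Function.Surjective (proj W p n) := by
  intro P
  obtain ⟨f, hf⟩ := exists_tate_apply_eq (W := W) hΔ (Fact.out (p := p.Prime)).ne_zero n P.1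
    (by rw [← natCast_zsmul]; exact (Submodule.mem_torsionBy_iff _ _).mp P.2)
  exact ⟨f, Subtype.ext hf⟩

/-! ### Freeness -/

theorem exists_basis_pair (hΔ : W.Δ ≠ 0) :
    ∃ g : Fin 2 → tateModule W p, ∀ (n : ℕ) (a : Fin 2 → ℕ),
      (∑ i, a i • (g i : ℕ → Pts W) n = 0 ↔ ∀ i, p ^ n ∣ a i) := by
  have hp : p.Prime := Fact.out
  obtain ⟨b⟩ := ECTorsion.exists_torsionBasis_rat (W.map (Int.castRingHom ℚ))
    (ECTorsion.Δ_map_intCast_ne_zero W hΔ) (pow_ne_zero 1 hp.ne_zero)
  choose g hg using fun i : Fin 2 => proj_surjective (W := W) (p := p) hΔ 1 (b i)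
  refine ⟨g, fun n a => ⟨fun h => ?_, fun h => Finset.sum_eq_zero fun i _ => ?_⟩⟩
  · induction n generalizing a with
    | zero => simp
    | succ n ih =>
      have h1 : ∀ i, p ∣ a i := by
        have hs : ∑ i, a i • (g i : ℕ → Pts W) 1 = 0 := by
          have := congrArg (p ^ n • ·) h
          simp only [nsmul_zero, Finset.smul_sum] at this
          rw [← this]
          refine Finset.sum_congr rfl fun i _ => ?_
          rw [smul_comm, add_comm n 1, tate_pow_smul]
        have hs' : ∑ i, (a i : ZMod (p ^ 1)) • b i = 0 := by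
          apply Subtype.ext
          simp only [Submodule.coe_sum, Nat.cast_smul_eq_nsmul, AddSubmonoidClass.coe_nsmul,
            ZeroMemClass.coe_zero]
          simpa [← hg] using hs
        intro i
        have := Fintype.linearIndependent_iff.mp b.linearIndependent _ hs' i
        rw [ZMod.natCast_eq_zero_iff] at this
        simpa using this
      choose c hc using h1
      have hc' := ih c (by
        rw [← h]
        refine Finset.sum_congr rfl fun i _ => ?_
        rw [hc i, mul_comm, mul_smul, tate_succ])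
      intro i
      rw [hc i, pow_succ']
      exact Nat.mul_dvd_mul_left p (hc' i)
  · obtain ⟨c, hc⟩ := h i
    rw [hc, mul_comm, mul_smul, pow_smul_tate_eq_zero, nsmul_zero]

theorem natCast_mem_maximalIdeal : (p : ℤ_[p]) ∈ IsLocalRing.maximalIdeal ℤ_[p] := by
  rw [PadicInt.maximalIdeal_eq_span_p]
  exact Ideal.subset_span rfl

theorem exists_toZModPow_eq_of_compatible (a : ℕ → ℕ)
    (h : ∀ m n, m ≤ n → (a n : ZMod (p ^ m)) = a m) :
    ∃ z : ℤ_[p], ∀ n, PadicInt.toZModPow n z = (a n : ZMod (p ^ n)) := by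
  obtain ⟨z, hz⟩ := IsPrecomplete.prec
    (inferInstance : IsPrecomplete (IsLocalRing.maximalIdeal ℤ_[p]) ℤ_[p])
    (f := fun n => (a n : ℤ_[p])) (fun {m n} hmn => by
      rw [SModEq.sub_mem, smul_eq_mul, Ideal.mul_top, PadicInt.maximalIdeal_eq_span_p,
        Ideal.span_singleton_pow, ← PadicInt.ker_toZModPow, RingHom.mem_ker, map_sub,
        map_natCast, map_natCast, h m n hmn, sub_self])
  refine ⟨z, fun n => ?_⟩
  have := hz n
  rw [SModEq.sub_mem, smul_eq_mul, Ideal.mul_top, PadicInt.maximalIdeal_eq_span_p,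
    Ideal.span_singleton_pow, ← PadicInt.ker_toZModPow, RingHom.mem_ker, map_sub, sub_eq_zero,
    map_natCast] at this
  exact this.symm

variable (W p) in
/-- The Tate module is free of rank two. -/
theorem exists_tateBasis (hΔ : W.Δ ≠ 0) :
    Nonempty (Module.Basis (Fin 2) ℤ_[p] (tateModule W p)) := by
  have hp : p.Prime := Fact.out
  obtain ⟨g, hg⟩ := exists_basis_pair (W := W) (p := p) hΔ
  let e : (Fin 2 → ℤ_[p]) →ₗ[ℤ_[p]] tateModule W p := Fintype.linearCombination ℤ_[p] g
  have he : ∀ (z : Fin 2 → ℤ_[p]) (n : ℕ) (a : Fin 2 → ℕ),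
      (∀ i, PadicInt.toZModPow n (z i) = (a i : ZMod (p ^ n))) →
      ((e z : tateModule W p) : ℕ → Pts W) n = ∑ i, a i • (g i : ℕ → Pts W) n := by
    intro z n a ha
    simp only [e, Fintype.linearCombination_apply, AddSubgroup.val_finsetSum, Finset.sum_apply]
    exact Finset.sum_congr rfl fun i _ => smul_tate_apply_of_eq _ (ha i)
  have hinj : Function.Injective e := by
    rw [injective_iff_map_eq_zero]
    intro z hz
    funext i
    refine PadicInt.ext_of_toZModPow.mp fun n => ?_
    have h1 := he z n (fun i => (z i).appr n) (fun i => toZModPow_appr _ _)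
    rw [hz] at h1
    have h2 := (hg n _).mp h1.symm i
    rw [Pi.zero_apply, map_zero, toZModPow_appr]
    exact (ZMod.natCast_eq_zero_iff _ _).mpr h2
  have hsurj : Function.Surjective e := by
    intro f
    have hlev : ∀ n, ∃ a : Fin 2 → ℕ,
        ∑ i, a i • (g i : ℕ → Pts W) n = (f : ℕ → Pts W) n := by
      intro n
      have : NeZero (p ^ n) := ⟨pow_ne_zero n hp.ne_zero⟩
      have : Finite (Tors W (p ^ n)) := Nat.finite_of_card_ne_zero (by
        rw [ECTorsion.card_torsionBy_int W hΔ (pow_ne_zero n hp.ne_zero)]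
        exact pow_ne_zero _ (pow_ne_zero n hp.ne_zero))
      let φ : (Fin 2 → ZMod (p ^ n)) →ₗ[ZMod (p ^ n)] Tors W (p ^ n) :=
        Fintype.linearCombination _ fun i => proj W p n (g i)
      have hφ : ∀ v, ((φ v : Tors W (p ^ n)) : Pts W) =
          ∑ i, (v i).val • (g i : ℕ → Pts W) n := by
        intro v
        simp only [φ, Fintype.linearCombination_apply, Submodule.coe_sum]
        refine Finset.sum_congr rfl fun i _ => ?_
        conv_lhs => rw [← ZMod.natCast_zmod_val (v i)]
        rw [Nat.cast_smul_eq_nsmul]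
        rfl
      have hφi : Function.Injective φ := by
        rw [injective_iff_map_eq_zero]
        intro v hv
        funext i
        have h3 := (hg n _).mp ((hφ v).symm.trans congr(($hv : Pts W))) i
        rw [← ZMod.natCast_zmod_val (v i)]
        exact (ZMod.natCast_eq_zero_iff _ _).mpr h3
      obtain ⟨-, hφs⟩ := (Nat.bijective_iff_injective_and_card φ).mpr ⟨hφi, by
        rw [Nat.card_fun, Nat.card_zmod, Nat.card_fin,
          ECTorsion.card_torsionBy_int W hΔ (pow_ne_zero n hp.ne_zero)]⟩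
      obtain ⟨v, hv⟩ := hφs (proj W p n f)
      exact ⟨fun i => (v i).val, by rw [← hφ v, hv, coe_proj]⟩
    choose a ha using hlev
    have huniq : ∀ n (b c : Fin 2 → ℕ),
        ∑ i, b i • (g i : ℕ → Pts W) n = ∑ i, c i • (g i : ℕ → Pts W) n →
        ∀ i, (b i : ZMod (p ^ n)) = c i := by
      intro n b c h i
      have h0 : ∑ i, (b i + (p ^ n - 1) * c i) • (g i : ℕ → Pts W) n = 0 := by
        simp only [add_smul, Finset.sum_add_distrib, mul_smul, ← Finset.smul_sum, h]
        rw [← succ_nsmul', Nat.sub_add_cancel (Nat.one_le_pow _ _ hp.pos),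
          Finset.smul_sum]
        exact Finset.sum_eq_zero fun i _ => by
          rw [smul_comm, pow_smul_tate_eq_zero, nsmul_zero]
      have h2 := (ZMod.natCast_eq_zero_iff _ _).mpr ((hg n _).mp h0 i)
      rw [Nat.cast_add, Nat.cast_mul, Nat.cast_sub (Nat.one_le_pow _ _ hp.pos),
        ZMod.natCast_self, Nat.cast_one] at h2
      linear_combination h2
    have hcomp : ∀ i m n, m ≤ n → (a n i : ZMod (p ^ m)) = a m i := by
      intro i m n hmn
      obtain ⟨k, rfl⟩ := Nat.exists_eq_add_of_le hmn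
      refine huniq m (a (m + k)) (a m) ?_ i
      rw [ha m, ← tate_pow_smul f m k, ← ha (m + k), Finset.smul_sum]
      exact Finset.sum_congr rfl fun i _ => by rw [smul_comm (p ^ k), tate_pow_smul]
    choose z hz using fun i => exists_toZModPow_eq_of_compatible (fun n => a n i) (hcomp i)
    exact ⟨z, tate_ext fun n => by rw [he z n (a n) (fun i => hz i n), ha n]⟩
  exact ⟨Module.Basis.ofEquivFun (LinearEquiv.ofBijective e ⟨hinj, hsurj⟩).symm⟩

/-- The kernel of the projection to the `p ^ n`-torsion is `p ^ n • T`. -/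
theorem proj_eq_zero_iff (_hΔ : W.Δ ≠ 0) (n : ℕ) (f : tateModule W p) :
    proj W p n f = 0 ↔ ∃ u : tateModule W p, f = (p : ℤ_[p]) ^ n • u := by
  constructor
  · intro h
    have hf : ∀ k, (f : ℕ → Pts W) k = p ^ n • (f : ℕ → Pts W) (k + n) :=
      fun k => (tate_pow_smul f k n).symm
    have h0 : (f : ℕ → Pts W) n = 0 := congr(($h : Pts W))
    refine ⟨⟨fun k => (f : ℕ → Pts W) (k + n), by simpa using h0, fun k => ?_⟩,
      tate_ext fun k => ?_⟩
    · show p • (f : ℕ → Pts W) (k + 1 + n) = (f : ℕ → Pts W) (k + n)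
      rw [Nat.add_right_comm k 1 n, tate_succ]
    · rw [smul_tate_apply_of_eq (a := p ^ n) _ (by simp)]
      exact hf k
  · rintro ⟨u, rfl⟩
    rw [proj_smul, map_pow, map_natCast, ← Nat.cast_pow, ZMod.natCast_self, zero_smul]

/-! ### The representation -/

variable (W p) in
/-- The Galois action on the Tate module. -/
def tateAction : GQ →* Module.End ℤ_[p] (tateModule W p) :=
  DistribMulAction.toModuleEnd ℤ_[p] (tateModule W p)

variable (W p) in
/-- The Galois action on the Tate module is continuous. -/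
theorem tateAction_continuous (hΔ : W.Δ ≠ 0) :
    GaloisActionIsAdicContinuous ℤ_[p] (tateAction W p) := by
  intro n
  obtain ⟨L, hL, hfix⟩ := ECTorsion.exists_finiteLevel_torsionBy (W.map (Int.castRingHom ℚ))
    (ECTorsion.Δ_map_intCast_ne_zero W hΔ) (pow_ne_zero n (Fact.out (p := p.Prime)).ne_zero)
  refine ⟨L, hL, fun σ hσ v => ?_⟩
  have h : proj W p n (σ • v - v) = 0 := by
    rw [map_sub, sub_eq_zero]
    exact hfix σ hσ (proj W p n v)
  obtain ⟨u, hu⟩ := (proj_eq_zero_iff hΔ n _).mp h
  show σ • v - v ∈ _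
  rw [hu]
  exact Submodule.smul_mem_smul (Ideal.pow_mem_pow natCast_mem_maximalIdeal n) Submodule.mem_top

variable (W p) in
/-- The Tate module as an adic Galois representation. -/
def tateRep (hΔ : W.Δ ≠ 0) : GaloisRepAdic ℤ_[p] :=
  { V := tateModule W p
    instFree := Module.Free.of_basis (exists_tateBasis W p hΔ).some
    instFinite := Module.Finite.of_basis (exists_tateBasis W p hΔ).some
    finrank_eq := by
      rw [Module.finrank_eq_card_basis (exists_tateBasis W p hΔ).some, Fintype.card_fin]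
    ρ := tateAction W p
    isAdicContinuous := tateAction_continuous W p hΔ }

theorem proj_tateRep (hΔ : W.Δ ≠ 0) (n : ℕ) (σ : GQ) (f : tateModule W p) :
    proj W p n ((tateRep W p hΔ).ρ σ f) = σ • proj W p n f := rfl

end Fermat.Agent.CurveTate
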