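import Mathlib.AlgebraicGeometry.EllipticCurve.Affine.Point
import Mathlib.Tactic.LinearCombination
import Mathlib.Tactic.FieldSimp

/-!
# The chart `(x/v, 1/v)` of a Weierstrass cubic

For `v = y + (a₁ x + a₃)/2` the curve is `v² = x³ + a x² + b x + c`; in the coordinates
`t = x/v`, `w = 1/v` it is `w = t³ + a t² w + b t w² + c w³`. This chart contains all points of
odd order. The identities below express the group law in this chart with no case distinction in
the coefficients.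
-/

set_option autoImplicit false

namespace Fermat.Agent.CurveTate.Chart

open WeierstrassCurve WeierstrassCurve.Affine

section Poly

variable {R : Type*} [CommRing R] (a b c : R)

/-- The equation of the cubic in the chart. -/
def eqn (t w : R) : R := w - (t ^ 3 + a * t ^ 2 * w + b * t * w ^ 2 + c * w ^ 3)

/-- First chord polynomial. -/
def den (_t₁ w₁ t₂ w₂ : R) : R :=
  1 - a * t₂ ^ 2 - b * t₂ * (w₁ + w₂) - c * (w₁ ^ 2 + w₁ * w₂ + w₂ ^ 2)

/-- Second chord polynomial. -/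
def num (t₁ w₁ t₂ _w₂ : R) : R :=
  t₁ ^ 2 + t₁ * t₂ + t₂ ^ 2 + a * (t₁ + t₂) * w₁ + b * w₁ ^ 2

/-- Cubic coefficient of `s ↦ eqn (t + s α, w + s β)`. -/
def c₃ (α β : R) : R := -(α ^ 3 + a * α ^ 2 * β + b * α * β ^ 2 + c * β ^ 3)

/-- Quadratic coefficient of `s ↦ eqn (t + s α, w + s β)`. -/
def c₂ (α β t w : R) : R :=
  -(3 * t * α ^ 2 + a * (α ^ 2 * w + 2 * t * α * β) + b * (2 * α * β * w + t * β ^ 2) +
    3 * c * w * β ^ 2)

/-- Linear coefficient of `s ↦ eqn (t + s α, w + s β)`. -/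
def c₁ (α β t w : R) : R :=
  β - (3 * t ^ 2 * α + a * (2 * t * w * α + t ^ 2 * β) + b * (w ^ 2 * α + 2 * t * w * β) +
    3 * c * w ^ 2 * β)

theorem eqn_line (α β t w s : R) :
    eqn a b c (t + s * α) (w + s * β) =
      eqn a b c t w + s * c₁ a b c α β t w + s ^ 2 * c₂ a b c α β t w + s ^ 3 * c₃ a b c α β := by
  simp only [eqn, c₁, c₂, c₃]
  ring

theorem chord_relation (t₁ w₁ t₂ w₂ : R) :
    eqn a b c t₂ w₂ - eqn a b c t₁ w₁ =
      (w₂ - w₁) * den a b c t₁ w₁ t₂ w₂ - (t₂ - t₁) * num a b t₁ w₁ t₂ w₂ := by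
  simp only [eqn, den, num]
  ring

theorem c₁_tangent (t w : R) :
    c₁ a b c (den a b c t w t w) (num a b t w t w) t w = 0 := by
  simp only [c₁, den, num]
  ring

variable {S : Type*} [CommRing S] (f : R →+* S)

theorem map_eqn (t w : R) : f (eqn a b c t w) = eqn (f a) (f b) (f c) (f t) (f w) := by
  simp [eqn]

theorem map_den (t₁ w₁ t₂ w₂ : R) :
    f (den a b c t₁ w₁ t₂ w₂) = den (f a) (f b) (f c) (f t₁) (f w₁) (f t₂) (f w₂) := by
  simp [den]

theorem map_num (t₁ w₁ t₂ w₂ : R) :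
    f (num a b t₁ w₁ t₂ w₂) = num (f a) (f b) (f t₁) (f w₁) (f t₂) (f w₂) := by
  simp [num]

theorem map_c₃ (α β : R) : f (c₃ a b c α β) = c₃ (f a) (f b) (f c) (f α) (f β) := by
  simp [c₃]

theorem map_c₂ (α β t w : R) :
    f (c₂ a b c α β t w) = c₂ (f a) (f b) (f c) (f α) (f β) (f t) (f w) := by
  simp [c₂, map_ofNat]

end Poly

section Residue

variable {k : Type*} [Field k] (a b c : k)

/-- The chart curve is smooth on the chart. -/
theorem den_num_ne_zero (h2 : (2 : k) ≠ 0) {t w : k} (he : eqn a b c t w = 0) :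
    den a b c t w t w ≠ 0 ∨ num a b t w t w ≠ 0 := by
  by_contra hcon
  push Not at hcon
  obtain ⟨hd, hn⟩ := hcon
  simp only [eqn, den, num] at he hd hn
  have h : 2 * w = 0 := by linear_combination 3 * he - w * hd + t * hn
  have hw : w = 0 := (mul_eq_zero.mp h).resolve_left h2
  rw [hw] at hd he
  have ht : t = 0 := pow_eq_zero_iff (by norm_num : (3 : ℕ) ≠ 0) |>.mp (by linear_combination -he)
  rw [ht] at hd
  exact one_ne_zero (by linear_combination hd)

/-- The chart cubic contains no line. -/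
theorem no_line {α β t w : k} (hαβ : α ≠ 0 ∨ β ≠ 0) (h₀ : eqn a b c t w = 0)
    (h₁ : c₁ a b c α β t w = 0) (h₂ : c₂ a b c α β t w = 0) (h₃ : c₃ a b c α β = 0) : False := by
  have hline : ∀ s, eqn a b c (t + s * α) (w + s * β) = 0 := fun s => by
    rw [eqn_line, h₀, h₁, h₂, h₃]; ring
  have hβ : β ≠ 0 := by
    intro hβ
    simp only [c₃, hβ] at h₃
    exact hαβ.elim (fun hα => hα (pow_eq_zero_iff (by norm_num : (3 : ℕ) ≠ 0) |>.mp
      (by linear_combination -h₃))) (fun h => h hβ)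
  have h := hline (-w / β)
  rw [div_mul_cancel₀ _ hβ, add_neg_cancel] at h
  simp only [eqn] at h
  have ht : t + -w / β * α = 0 :=
    pow_eq_zero_iff (by norm_num : (3 : ℕ) ≠ 0) |>.mp (by linear_combination -h)
  have h' := hline (-w / β + 1)
  rw [add_mul, add_mul, ← add_assoc, ← add_assoc, ht, div_mul_cancel₀ _ hβ, add_neg_cancel,
    zero_add, zero_add, one_mul, one_mul] at h'
  simp only [eqn, c₃] at h' h₃
  exact hβ (by linear_combination h' - h₃)

/-- The cubic coefficient does not vanish on the direction of a chord or tangent. -/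
theorem c₃_ne_zero {α β t₁ w₁ t₂ w₂ τ ω : k} (hαβ : α ≠ 0 ∨ β ≠ 0)
    (h₁ : eqn a b c t₁ w₁ = 0) (h₂ : eqn a b c t₂ w₂ = 0)
    (hdir : α = t₂ - t₁ ∧ β = w₂ - w₁ ∨
      (t₂ = t₁ ∧ w₂ = w₁ ∧ α = den a b c t₁ w₁ t₂ w₂ ∧ β = num a b t₁ w₁ t₂ w₂))
    (hT : c₃ a b c α β * τ = -α * c₂ a b c α β t₁ w₁)
    (hW : c₃ a b c α β * ω = -β * c₂ a b c α β t₁ w₁) : c₃ a b c α β ≠ 0 := by
  intro h₃
  rw [h₃, zero_mul, eq_comm, mul_eq_zero, neg_eq_zero] at hT hW
  have hc₂ : c₂ a b c α β t₁ w₁ = 0 := by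
    rcases hαβ with h | h
    · exact hT.resolve_left h
    · exact hW.resolve_left h
  refine no_line a b c hαβ h₁ ?_ hc₂ h₃
  rcases hdir with ⟨hα, hβ⟩ | ⟨ht, hw, hα, hβ⟩
  · have := eqn_line a b c α β t₁ w₁ 1
    rw [hc₂, h₃, h₁, one_mul, one_mul, hα, hβ, add_sub_cancel, add_sub_cancel, h₂] at this
    rw [hα, hβ]
    linear_combination -this
  · rw [hα, hβ, ht, hw]
    exact c₁_tangent a b c t₁ w₁

end Residue

section Points

variable {K : Type*} [Field K] [DecidableEq K] (E : WeierstrassCurve.Affine K)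

/-- The coefficient `a`. -/
def coA : K := E.a₂ + E.a₁ ^ 2 / 4

/-- The coefficient `b`. -/
def coB : K := E.a₄ + E.a₁ * E.a₃ / 2

/-- The coefficient `c`. -/
def coC : K := E.a₆ + E.a₃ ^ 2 / 4

/-- The coordinate `v = y + (a₁ x + a₃)/2`. -/
def vCoord (x y : K) : K := y + (E.a₁ * x + E.a₃) / 2

/-- The coordinate `x / v` (`0` at infinity). -/
def cT : E.Point → K
  | .zero => 0
  | .some x y _ => x / vCoord E x y

/-- The coordinate `1 / v` (`0` at infinity). -/
def cW : E.Point → K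
  | .zero => 0
  | .some x y _ => 1 / vCoord E x y

/-- The point lies in the chart. -/
def InChart : E.Point → Prop
  | .zero => True
  | .some x y _ => vCoord E x y ≠ 0

omit [DecidableEq K] in
@[simp] theorem cT_zero : cT E 0 = 0 := rfl

omit [DecidableEq K] in
@[simp] theorem cW_zero : cW E 0 = 0 := rfl

omit [DecidableEq K] in
theorem vCoord_negY (h2 : (2 : K) ≠ 0) (x y : K) :
    vCoord E x (E.negY x y) = -vCoord E x y := by
  simp only [vCoord, negY]
  field_simp
  ring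

omit [DecidableEq K] in
theorem vCoord_sq (h2 : (2 : K) ≠ 0) {x y : K} (h : E.Equation x y) :
    vCoord E x y ^ 2 = x ^ 3 + coA E * x ^ 2 + coB E * x + coC E := by
  have h' := (equation_iff x y).mp h
  have h4 : (4 : K) ≠ 0 := by rw [show (4 : K) = 2 * 2 by norm_num]; exact mul_ne_zero h2 h2
  simp only [vCoord, coA, coB, coC]
  field_simp
  linear_combination 16 * h'

omit [DecidableEq K] in
theorem eqn_cT_cW (h2 : (2 : K) ≠ 0) {P : E.Point} (hP : InChart E P) :
    eqn (coA E) (coB E) (coC E) (cT E P) (cW E P) = 0 := by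
  rcases P with _ | ⟨x, y, h⟩
  · simp [cT, cW, eqn]
  · have := vCoord_sq E h2 h.1
    have hv : vCoord E x y ≠ 0 := hP
    simp only [cT, cW, eqn]
    field_simp
    linear_combination this

omit [DecidableEq K] in
theorem cT_neg (h2 : (2 : K) ≠ 0) (P : E.Point) : cT E (-P) = -cT E P := by
  rcases P with _ | ⟨x, y, h⟩
  · exact neg_zero.symm
  · rw [Point.neg_some]
    simp only [cT, vCoord_negY E h2, div_neg]

omit [DecidableEq K] in
theorem cW_neg (h2 : (2 : K) ≠ 0) (P : E.Point) : cW E (-P) = -cW E P := by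
  rcases P with _ | ⟨x, y, h⟩
  · exact neg_zero.symm
  · rw [Point.neg_some]
    simp only [cW, vCoord_negY E h2, div_neg]

omit [DecidableEq K] in
/-- The two coordinates determine a point of the chart. -/
theorem eq_of_cT_cW {P Q : E.Point} (hP : InChart E P) (hQ : InChart E Q)
    (ht : cT E P = cT E Q) (hw : cW E P = cW E Q) : P = Q := by
  rcases P with _ | ⟨x, y, h⟩ <;> rcases Q with _ | ⟨x', y', h'⟩
  · rfl
  · exact absurd hw.symm (div_ne_zero one_ne_zero hQ)
  · exact absurd hw (div_ne_zero one_ne_zero hP)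
  · simp only [cT, cW] at ht hw
    have hv : vCoord E x y = vCoord E x' y' := inv_injective (by simpa [one_div] using hw)
    rw [hv, div_left_inj' hQ] at ht
    subst ht
    simp only [vCoord, add_left_inj] at hv
    subst hv
    rfl

omit [DecidableEq K] in
/-- The chord identity for three collinear affine points. -/
theorem chord_identity_affine {a b c x₁ x₂ x₃ l n k α β : K}
    (hv₁ : l * x₁ + n ≠ 0) (hv₂ : l * x₂ + n ≠ 0) (hv₃ : l * x₃ + n ≠ 0)
    (ha : a = l ^ 2 - x₁ - x₂ - x₃) (hb : b = 2 * l * n + x₁ * x₂ + x₁ * x₃ + x₂ * x₃)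
    (hc : c = n ^ 2 - x₁ * x₂ * x₃) (hα : α = k * n) (hβ : β = -k * l) :
    c₃ a b c α β *
        (x₃ / (l * x₃ + n) - 2 * (x₁ / (l * x₁ + n)) + x₂ / (l * x₂ + n)) =
      -α * c₂ a b c α β (x₁ / (l * x₁ + n)) (1 / (l * x₁ + n)) ∧
    c₃ a b c α β *
        (1 / (l * x₃ + n) - 2 * (1 / (l * x₁ + n)) + 1 / (l * x₂ + n)) =
      -β * c₂ a b c α β (x₁ / (l * x₁ + n)) (1 / (l * x₁ + n)) := by
  subst ha hb hc hα hβ
  constructor <;> simp only [c₃, c₂] <;> field_simp <;> ring

omit [DecidableEq K] in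
/-- The chord identity for a chord through the origin. -/
theorem chord_identity_origin {a b c t w α β : K} (hd : α * w = β * t) :
    c₃ a b c α β * (-3 * t) = -α * c₂ a b c α β t w ∧
    c₃ a b c α β * (-3 * w) = -β * c₂ a b c α β t w := by
  simp only [c₃, c₂]
  constructor
  · linear_combination (-(a * α ^ 2) - 2 * b * α * β - 3 * c * β ^ 2) * hd
  · linear_combination (3 * α ^ 2 + 2 * a * α * β + b * β ^ 2) * hd

/-- **The group law in the chart.** For two points `P`, `Q`, with `-(P + Q)` in the chart, and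
`(α, β)` either the difference or `(den, num)`, the coordinates of `P + Q` satisfy a linear
relation with coefficients polynomial in those of `P` and `Q`. -/
theorem chord_identity (h2 : (2 : K) ≠ 0) {P Q : E.Point} (hP : InChart E P) (hQ : InChart E Q)
    (hPQ : InChart E (P + Q)) {α β : K}
    (hdir : α = cT E Q - cT E P ∧ β = cW E Q - cW E P ∨
      α = den (coA E) (coB E) (coC E) (cT E P) (cW E P) (cT E Q) (cW E Q) ∧
      β = num (coA E) (coB E) (cT E P) (cW E P) (cT E Q) (cW E Q)) :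
    c₃ (coA E) (coB E) (coC E) α β * (-cT E (P + Q) - 2 * cT E P + cT E Q) =
      -α * c₂ (coA E) (coB E) (coC E) α β (cT E P) (cW E P) ∧
    c₃ (coA E) (coB E) (coC E) α β * (-cW E (P + Q) - 2 * cW E P + cW E Q) =
      -β * c₂ (coA E) (coB E) (coC E) α β (cT E P) (cW E P) := by
  set a := coA E
  set b := coB E
  set c := coC E
  have hprop : ∀ {t w : K}, eqn a b c t w = 0 → cT E P = t → cW E P = w →
      ∀ {t' w' : K}, eqn a b c t' w' = 0 → cT E Q = t' → cW E Q = w' →
      α * (w' - w) = β * (t' - t) := by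
    intro t w he ht hw t' w' he' ht' hw'
    subst ht hw ht' hw'
    rcases hdir with ⟨hα, hβ⟩ | ⟨hα, hβ⟩
    · rw [hα, hβ]; ring
    · have := chord_relation a b c (cT E P) (cW E P) (cT E Q) (cW E Q)
      rw [he, he', sub_zero] at this
      rw [hα, hβ]
      linear_combination -this
  have eP := eqn_cT_cW E h2 hP
  have eQ := eqn_cT_cW E h2 hQ
  have hd := hprop eP rfl rfl eQ rfl rfl
  rcases P with _ | ⟨x₁, y₁, h₁⟩
  · rw [← Point.zero_def, zero_add, cT_zero, cW_zero]
    have h0 : c₂ a b c α β 0 0 = 0 := by simp [c₂]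
    rw [h0]
    constructor <;> ring
  rcases Q with _ | ⟨x₂, y₂, h₂⟩
  · rw [← Point.zero_def, add_zero, cT_zero, cW_zero] at *
    obtain ⟨hT, hW⟩ := chord_identity_origin (a := a) (b := b) (c := c)
      (show α * cW E (.some x₁ y₁ h₁) = β * cT E (.some x₁ y₁ h₁) by linear_combination -hd)
    constructor
    · linear_combination hT
    · linear_combination hW
  by_cases hxy : x₁ = x₂ ∧ y₁ = E.negY x₂ y₂
  · have hneg : (.some x₂ y₂ h₂ : E.Point) = -.some x₁ y₁ h₁ := by
      rw [Point.neg_some]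
      simp only [Point.some.injEq]
      exact ⟨hxy.1.symm, by rw [hxy.2, hxy.1, negY_negY]⟩
    rw [Point.add_of_Y_eq hxy.1 hxy.2, cT_zero, cW_zero, hneg, cT_neg E h2, cW_neg E h2]
    rw [hneg, cT_neg E h2, cW_neg E h2] at hd
    obtain ⟨hT, hW⟩ := chord_identity_origin (a := a) (b := b) (c := c)
      (show α * cW E (.some x₁ y₁ h₁) = β * cT E (.some x₁ y₁ h₁) from mul_left_cancel₀ h2
        (by linear_combination -hd))
    constructor
    · linear_combination hT
    · linear_combination hW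
  rw [Point.add_some hxy] at hPQ ⊢
  set L := E.slope x₁ x₂ y₁ y₂
  set x₃ := E.addX x₁ x₂ L
  set l := L + E.a₁ / 2 with hl
  set v₁ := vCoord E x₁ y₁
  set v₂ := vCoord E x₂ y₂
  set n := v₁ - l * x₁ with hn
  have hv₁ : l * x₁ + n = v₁ := by rw [hn]; ring
  have e₁ : v₁ ^ 2 = x₁ ^ 3 + a * x₁ ^ 2 + b * x₁ + c := vCoord_sq E h2 h₁.1
  have e₂ : v₂ ^ 2 = x₂ ^ 3 + a * x₂ ^ 2 + b * x₂ + c := vCoord_sq E h2 h₂.1
  have h4 : (4 : K) ≠ 0 := by rw [show (4 : K) = 2 * 2 by norm_num]; exact mul_ne_zero h2 h2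
  have hv₃ : vCoord E x₃ (E.addY x₁ x₂ y₁ L) = -(l * x₃ + n) := by
    rw [addY, vCoord_negY E h2, negAddY, neg_inj, hn, hl]
    simp only [vCoord, v₁, x₃]
    field_simp
    ring
  have ha : a = l ^ 2 - x₁ - x₂ - x₃ := by
    simp only [x₃, addX, a, coA, hl]
    field_simp
    ring
  -- the second point lies on the line, and the line meets the cubic as expected
  obtain ⟨hv₂, hb⟩ : l * x₂ + n = v₂ ∧ b = 2 * l * n + x₁ * x₂ + x₁ * x₃ + x₂ * x₃ := by
    by_cases hx : x₁ = x₂
    · have hy : y₁ = y₂ := Y_eq_of_Y_ne h₁.1 h₂.1 hx fun h => hxy ⟨hx, h⟩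
      subst hx hy
      have hne : y₁ ≠ E.negY x₁ y₁ := fun h => hxy ⟨rfl, h⟩
      have hL : L * (y₁ - E.negY x₁ y₁) = 3 * x₁ ^ 2 + 2 * E.a₂ * x₁ + E.a₄ - E.a₁ * y₁ := by
        simp only [L, slope_of_Y_ne rfl hne]
        exact div_mul_cancel₀ _ (sub_ne_zero.mpr hne)
      have hv : 2 * v₁ = y₁ - E.negY x₁ y₁ := by
        simp only [v₁, vCoord, negY]; field_simp; ring
      have hl' : 2 * v₁ * l = 3 * x₁ ^ 2 + 2 * a * x₁ + b := by
        have : 2 * v₁ * l = L * (y₁ - E.negY x₁ y₁) + E.a₁ * v₁ := by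
          rw [hl, ← hv]; field_simp
        rw [this, hL]
        simp only [v₁, vCoord, a, b, coA, coB]
        field_simp
        ring
      refine ⟨hv₁, ?_⟩
      rw [hn]
      linear_combination -hl' - 2 * x₁ * ha
    · have hL : L * (x₁ - x₂) = y₁ - y₂ := by
        simp only [L, slope_of_X_ne hx]
        exact div_mul_cancel₀ _ (sub_ne_zero.mpr hx)
      have hv₂ : l * x₂ + n = v₂ := by
        rw [hn, hl]
        simp only [v₁, v₂, vCoord]
        field_simp
        linear_combination (-2 : K) * hL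
      refine ⟨hv₂, mul_left_cancel₀ (sub_ne_zero.mpr hx) ?_⟩
      rw [← hv₁] at e₁
      rw [← hv₂] at e₂
      linear_combination -(e₁ - e₂) - (x₁ ^ 2 - x₂ ^ 2) * ha
  have hc : c = n ^ 2 - x₁ * x₂ * x₃ := by
    rw [← hv₁] at e₁
    linear_combination -e₁ - x₁ ^ 2 * ha - x₁ * hb
  have hv₁0 : v₁ ≠ 0 := hP
  have hv₂0 : v₂ ≠ 0 := hQ
  have hv₃0 : l * x₃ + n ≠ 0 := fun h => hPQ (show vCoord E x₃ (E.addY x₁ x₂ y₁ L) = 0 by rw [hv₃, h, neg_zero])
  have hln : l ≠ 0 ∨ n ≠ 0 := by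
    by_contra h
    push Not at h
    exact hv₁0 (by rw [← hv₁, h.1, h.2]; ring)
  have hline : l * α + n * β = 0 := by
    have hdiff : l * (x₂ / v₂ - x₁ / v₁) + n * (1 / v₂ - 1 / v₁) = 0 := by
      field_simp
      linear_combination v₁ * hv₂ - v₂ * hv₁
    by_cases hne : x₁ = x₂ ∧ v₁ = v₂
    · obtain ⟨hx, hv⟩ := hne
      rcases hdir with ⟨hα, hβ⟩ | ⟨hα, hβ⟩
      · rw [hα, hβ]
        exact hdiff
      · simp only [cT, cW, den, num] at hα hβ
        rw [← hx, show vCoord E x₁ y₂ = v₁ by rw [hx]; exact hv.symm] at hα hβ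
        simp only [v₁] at hα hβ
        rw [hα, hβ]
        rw [← hx] at hb ha hc
        rw [ha, hb, hc]
        have hne0 : l * x₁ + n ≠ 0 := by rw [hv₁]; exact hv₁0
        rw [show vCoord E x₁ y₁ = l * x₁ + n from hv₁.symm]
        field_simp
        ring
    · have hTW : x₂ / v₂ - x₁ / v₁ ≠ 0 ∨ 1 / v₂ - 1 / v₁ ≠ 0 := by
        by_contra h
        push Not at h
        have hv : v₁ = v₂ := inv_injective (by simpa [one_div] using (sub_eq_zero.mp h.2).symm)
        refine hne ⟨?_, hv⟩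
        have := sub_eq_zero.mp h.1
        rw [← hv, div_left_inj' hv₁0] at this
        exact this.symm
      simp only [cT, cW] at hd
      rcases hTW with h | h
      · refine mul_left_cancel₀ h ?_
        linear_combination α * hdiff - n * hd
      · refine mul_left_cancel₀ h ?_
        linear_combination β * hdiff + l * hd
  obtain ⟨k, hα, hβ⟩ : ∃ k, α = k * n ∧ β = -k * l := by
    rcases hln with h | h
    · exact ⟨-β / l, by field_simp; linear_combination hline, by field_simp⟩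
    · exact ⟨α / n, by field_simp, by field_simp; linear_combination hline⟩
  have key := chord_identity_affine (by rwa [hv₁]) (by rwa [hv₂]) hv₃0 ha hb hc hα hβ
  rw [hv₁, hv₂] at key
  show c₃ a b c α β * (-(x₃ / vCoord E x₃ (E.addY x₁ x₂ y₁ L)) - 2 * (x₁ / v₁) + x₂ / v₂) =
      -α * c₂ a b c α β (x₁ / v₁) (1 / v₁) ∧
    c₃ a b c α β * (-(1 / vCoord E x₃ (E.addY x₁ x₂ y₁ L)) - 2 * (1 / v₁) + 1 / v₂) =
      -β * c₂ a b c α β (x₁ / v₁) (1 / v₁)
  simpa only [hv₃, div_neg, neg_neg] using key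

end Points

end Fermat.Agent.CurveTate.Chart
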