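import Fermat.Agent.CurveTate.Basic
import Fermat.Agent.WeilPairing.Det
import Fermat.Agent.TWHyp.Curve

/-!
# Determinant, unramified and unipotent conditions for the Tate module of a curve
-/

set_option autoImplicit false

noncomputable section

open scoped Classical
open scoped WeierstrassCurve.Affine
open WeierstrassCurve WeierstrassCurve.Affine Polynomial

namespace Fermat.Agent.CurveTate

local notation "GQ" => (AlgebraicClosure ℚ ≃ₐ[ℚ] AlgebraicClosure ℚ)

variable {W : WeierstrassCurve ℤ} {p : ℕ} [Fact p.Prime]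

/-- A basis of the Tate module gives bases of all torsion levels with compatible matrices. -/
theorem exists_levelBasis (hΔ : W.Δ ≠ 0)
    (b : Module.Basis (Fin 2) ℤ_[p] (tateModule W p)) (n : ℕ) :
    ∃ b' : Module.Basis (Fin 2) (ZMod (p ^ n)) (Tors W (p ^ n)),
      (∀ i, b' i = proj W p n (b i)) ∧
      ∀ σ : GQ, LinearMap.toMatrix b' b' (TWHyp.torsionEnd W (p ^ n) σ) =
        (LinearMap.toMatrix b b (tateAction W p σ)).map (PadicInt.toZModPow n) := by
  have hproj : ∀ v : tateModule W p,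
      proj W p n v = ∑ i, PadicInt.toZModPow n (b.repr v i) • proj W p n (b i) := fun v => by
    conv_lhs => rw [← b.sum_repr v]
    rw [map_sum]
    exact Finset.sum_congr rfl fun i _ => proj_smul n _ _
  have hli : LinearIndependent (ZMod (p ^ n)) fun i => proj W p n (b i) := by
    rw [Fintype.linearIndependent_iff]
    intro c hc
    choose z hz using fun i => ZMod.ringHom_surjective (PadicInt.toZModPow (p := p) n) (c i)
    have h0 : proj W p n (∑ i, z i • b i) = 0 := by
      rw [map_sum, ← hc]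
      exact Finset.sum_congr rfl fun i _ => by rw [proj_smul, hz]
    obtain ⟨u, hu⟩ := (proj_eq_zero_iff hΔ n _).mp h0
    intro i
    have h1 := congrArg (fun v => b.repr v i) hu
    simp only [b.repr_sum_self, map_smul, Finsupp.smul_apply, smul_eq_mul] at h1
    rw [← hz i, h1, map_mul, map_pow, map_natCast, ← Nat.cast_pow, ZMod.natCast_self, zero_mul]
  have hsp : ⊤ ≤ Submodule.span (ZMod (p ^ n)) (Set.range fun i => proj W p n (b i)) := by
    intro P _
    obtain ⟨v, rfl⟩ := proj_surjective hΔ n P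
    rw [hproj v]
    exact Submodule.sum_mem _ fun i _ =>
      Submodule.smul_mem _ _ (Submodule.subset_span ⟨i, rfl⟩)
  refine ⟨Module.Basis.mk hli hsp, fun i => Module.Basis.mk_apply hli hsp i, fun σ => ?_⟩
  ext i j
  rw [LinearMap.toMatrix_apply, Matrix.map_apply, LinearMap.toMatrix_apply,
    Module.Basis.mk_apply, Point.galoisRepModuleEnd_apply,
    show σ • proj W p n (b j) = proj W p n (tateAction W p σ (b j)) from rfl, hproj]
  have := (Module.Basis.mk hli hsp).repr_sum_self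
    (fun i => PadicInt.toZModPow n (b.repr (tateAction W p σ (b j)) i))
  simp only [Module.Basis.mk_apply] at this
  rw [this]

theorem toZModPow_det (hΔ : W.Δ ≠ 0) (n : ℕ) (σ : GQ) :
    PadicInt.toZModPow n (LinearMap.det ((tateRep W p hΔ).ρ σ)) =
      LinearMap.det (TWHyp.torsionEnd W (p ^ n) σ) := by
  obtain ⟨b⟩ := exists_tateBasis W p hΔ
  obtain ⟨b', -, h⟩ := exists_levelBasis hΔ b n
  change PadicInt.toZModPow n (LinearMap.det (tateAction W p σ)) = _
  rw [← LinearMap.det_toMatrix b, ← LinearMap.det_toMatrix b', h, RingHom.map_det]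
  rfl

theorem toZModPow_trace (hΔ : W.Δ ≠ 0) (n : ℕ) (σ : GQ) :
    PadicInt.toZModPow n (LinearMap.trace ℤ_[p] _ ((tateRep W p hΔ).ρ σ)) =
      LinearMap.trace (ZMod (p ^ n)) _ (TWHyp.torsionEnd W (p ^ n) σ) := by
  obtain ⟨b⟩ := exists_tateBasis W p hΔ
  obtain ⟨b', -, h⟩ := exists_levelBasis hΔ b n
  change PadicInt.toZModPow n (LinearMap.trace ℤ_[p] (tateModule W p) (tateAction W p σ)) = _
  rw [LinearMap.trace_eq_matrix_trace _ b, LinearMap.trace_eq_matrix_trace _ b', h,
    AddMonoidHom.map_trace]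

variable (W p)

/-- The determinant of `T_p W` is cyclotomic. -/
theorem detIsCyclotomic_tateRep (hΔ : W.Δ ≠ 0) :
    (tateRep W p hΔ).DetIsCyclotomic p := by
  refine ⟨natCast_mem_maximalIdeal, fun n σ a ha => ?_⟩
  rw [Nat.cast_pow, ← PadicInt.ker_toZModPow, RingHom.mem_ker, map_sub, map_natCast, sub_eq_zero,
    toZModPow_det]
  have h := WeilPairing.det_galoisRep_eq (K := AlgebraicClosure ℚ) (S := ℚ)
    (W.map (Int.castRingHom ℚ)).toAffine
    (by simpa [WeierstrassCurve.map_Δ] using hΔ) (n := p ^ n)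
    (by exact_mod_cast pow_ne_zero n (Fact.out : p.Prime).ne_zero) σ a ha
  rw [LinearEquiv.coe_det] at h
  exact h

/-- Trace and determinant of Frobenius at a good prime. -/
theorem frobenius_tateRep (hΔ : W.Δ ≠ 0) {q : ℕ} (hq : q.Prime) (hqp : q ≠ p)
    (hgood : W.IsGoodPrimeFor q) {A : ValuationSubring (AlgebraicClosure ℚ)}
    (hA : A.LiesOverPrime q) {φ : GQ} (hφ : A.IsFrobeniusAt φ q) :
    (tateRep W p hΔ).trace φ = (W.apOfModel q : ℤ_[p]) ∧
      LinearMap.det ((tateRep W p hΔ).ρ φ) = (q : ℤ_[p]) ∧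
      LinearMap.charpoly ((tateRep W p hΔ).ρ φ) =
        X ^ 2 - C (W.apOfModel q : ℤ_[p]) * X + C (q : ℤ_[p]) := by
  have hn : ∀ n, ¬ q ∣ p ^ n := fun n h =>
    hqp ((Nat.prime_dvd_prime_iff_eq hq Fact.out).mp (hq.dvd_of_dvd_pow h))
  have ht : (tateRep W p hΔ).trace φ = (W.apOfModel q : ℤ_[p]) := by
    refine PadicInt.ext_of_toZModPow.mp fun n => ?_
    rw [map_intCast]
    exact (toZModPow_trace hΔ n φ).trans (TWHyp.frobenius_trace_det W hq (hn n) hgood hA hφ).1
  have hd : LinearMap.det ((tateRep W p hΔ).ρ φ) = (q : ℤ_[p]) := by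
    refine PadicInt.ext_of_toZModPow.mp fun n => ?_
    rw [map_natCast]
    exact (toZModPow_det hΔ n φ).trans (TWHyp.frobenius_trace_det W hq (hn n) hgood hA hφ).2
  refine ⟨ht, hd, ?_⟩
  obtain ⟨b⟩ : Nonempty (Module.Basis (Fin 2) ℤ_[p] (tateRep W p hΔ).V) :=
    exists_tateBasis W p hΔ
  rw [← LinearMap.charpoly_toMatrix _ b, Matrix.charpoly_fin_two,
    ← LinearMap.trace_eq_matrix_trace, LinearMap.det_toMatrix, hd]
  rw [show LinearMap.trace ℤ_[p] _ ((tateRep W p hΔ).ρ φ) = (W.apOfModel q : ℤ_[p]) from ht]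

/-- `T_p W` is unramified at a good prime `q ≠ p`. -/
theorem isUnramifiedAt_tateRep (hΔ : W.Δ ≠ 0) {q : ℕ} (hq : q.Prime) (hqp : q ≠ p)
    (hgood : ¬ (q : ℤ) ∣ W.Δ) : (tateRep W p hΔ).IsUnramifiedAt q := by
  intro A hA σ hσ
  refine LinearMap.ext fun f => tate_ext fun n => ?_
  have hn : ¬ q ∣ p ^ n := fun h =>
    hqp ((Nat.prime_dvd_prime_iff_eq hq Fact.out).mp (hq.dvd_of_dvd_pow h))
  exact congr(($(ECReduction.galoisRepUnramifiedAt_of_good W hq hn hgood rfl A hA σ hσ
    (proj W p n f)) : Pts W))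

omit [Fact p.Prime] in
theorem charpoly_of_sub_one_sq {A V : Type*} [CommRing A] [IsDomain A] [AddCommGroup V]
    [Module A V] [Module.Free A V] [Module.Finite A V] (hV : Module.finrank A V = 2)
    {f : Module.End A V} (hf : (f - 1) * (f - 1) = 0) :
    LinearMap.charpoly f = (X - 1) ^ 2 := by
  let b := Module.finBasisOfFinrankEq A V hV
  set M := LinearMap.toMatrixAlgEquiv b f
  have hM : (M - 1) * (M - 1) = 0 := by
    have := congrArg (LinearMap.toMatrixAlgEquiv b) hf
    rwa [map_mul, map_sub, map_one, map_zero] at this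
  have hdet : (M - 1).det = 0 := by
    have := congrArg Matrix.det hM
    rw [Matrix.det_mul, Matrix.det_zero] at this
    simpa using this
  have htr : (M - 1).trace = 0 :=
    (Matrix.isNilpotent_trace_of_isNilpotent (M := M - 1) ⟨2, by rw [sq]; exact hM⟩).eq_zero
  rw [Matrix.det_fin_two] at hdet
  rw [Matrix.trace_fin_two] at htr
  simp at hdet htr
  rw [← LinearMap.charpoly_toMatrix f b]
  change M.charpoly = _
  have e1 : M.trace = 2 := by rw [Matrix.trace_fin_two]; linear_combination htr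
  have e2 : M.det = 1 := by rw [Matrix.det_fin_two]; linear_combination hdet + htr
  rw [Matrix.charpoly_fin_two, e1, e2, map_one, map_ofNat]
  ring

/-- Inertia at a multiplicative prime `q ≠ p` acts unipotently on `T_p W`. -/
theorem sub_one_sq_tateRep (hΔ : W.Δ ≠ 0) {q : ℕ} (hqp : q ≠ p)
    {A : ValuationSubring (AlgebraicClosure ℚ)} (hmult : Multiplicative.MultAt W A q)
    {σ : GQ} (hσ : σ ∈ A.inertiaSubgroupIn ℚ) :
    ((tateRep W p hΔ).ρ σ - 1) * ((tateRep W p hΔ).ρ σ - 1) = 0 := by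
  refine LinearMap.ext fun f => tate_ext fun n => ?_
  have hn : ¬ q ∣ p ^ n := fun h =>
    hqp ((Nat.prime_dvd_prime_iff_eq hmult.1 Fact.out).mp (hmult.1.dvd_of_dvd_pow h))
  have h := LinearMap.congr_fun
    (Multiplicative.galoisRepModuleEnd_sub_one_sq hmult hσ hn) (proj W p n f)
  exact congr(($h : Pts W))

/-- Unipotence on inertia away from `p` for a semistable model. -/
theorem isUnipotentOnInertiaAt_tateRep (hΔ : W.Δ ≠ 0) (hW : W.IsSemistableModel) {q : ℕ}
    (hq : q.Prime) (hqp : q ≠ p) : (tateRep W p hΔ).IsUnipotentOnInertiaAt q := by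
  intro A hA σ hσ
  refine charpoly_of_sub_one_sq (tateRep W p hΔ).finrank_eq ?_
  by_cases hd : (q : ℤ) ∣ W.Δ
  · exact sub_one_sq_tateRep W p hΔ hqp ⟨hq, hA, hd, hW q hq hd, hΔ⟩ hσ
  · rw [isUnramifiedAt_tateRep W p hΔ hq hqp hd A hA σ hσ, sub_self, zero_mul]

end Fermat.Agent.CurveTate
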