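import Fermat.Agent.CurveTate.FlatTorsion
import Fermat.Agent.FlatModels.FlatAt

/-!
# The Tate module is flat at an odd prime of good reduction
-/

set_option autoImplicit false

noncomputable section

namespace Fermat.Agent.CurveTate

variable (W : WeierstrassCurve ℤ) (p : ℕ) [Fact p.Prime]

/-- `T_p W` is flat at an odd prime `p ∤ Δ`. -/
theorem isFlatAt_tateRep (hΔ : W.Δ ≠ 0) (hp2 : p ≠ 2) (hgood : ¬ (p : ℤ) ∣ W.Δ) :
    (tateRep W p hΔ).IsFlatAt p := by
  have hp : p.Prime := Fact.out
  refine FlatModels.isFlatAt_of_maps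
    (Finite.of_equiv _ (PadicInt.residueField (p := p)).symm.toEquiv)
    natCast_mem_maximalIdeal fun n =>
      ⟨Tors W (p ^ n), inferInstance, fun σ x => σ • x, proj W p n,
        hasFlatModel_torsion hp hp2 hgood ((hp.odd_of_ne_two hp2).pow),
        fun σ v => proj_tateRep hΔ n σ v, fun v hv => ?_⟩
  exact (proj_eq_zero_iff hΔ n v).mp hv

end Fermat.Agent.CurveTate
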