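import Fermat.Agent.CurveTate.Integral
import Fermat.Agent.FlatModels.Basic
import Mathlib.RingTheory.Adjoin.FG
import Mathlib.RingTheory.IntegralClosure.IsIntegralClosure.Basic

/-!
# A finite flat model of `E[N]` over `ℤ₍ₚ₎`

For `p` odd, `p ∤ Δ` and `N` odd the algebra of functions generated by the chart coordinates
`x/v, 1/v` is a Hopf order of `E[N]`. Closure under comultiplication is the chord identity of
`CurveTate.Chart` together with the fact that its cubic coefficient is locally a unit.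
-/

set_option autoImplicit false

noncomputable section

namespace Fermat.Agent.CurveTate

open WeierstrassCurve WeierstrassCurve.Affine
open Fermat.Agent.FlatModels (Rp mulMap HasFlatModel IsHopfOrder IsEquivariant)
open scoped WeierstrassCurve.Affine TensorProduct

local notation "Qb" => AlgebraicClosure ℚ
local notation "GQ" => (AlgebraicClosure ℚ ≃ₐ[ℚ] AlgebraicClosure ℚ)

variable (W : WeierstrassCurve ℤ) (p N : ℕ)

/-- The first chart coordinate on the torsion. -/
def funT : Tors W N → Qb := fun P => Chart.cT (EQ W) (P : Pts W)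

/-- The second chart coordinate on the torsion. -/
def funW : Tors W N → Qb := fun P => Chart.cW (EQ W) (P : Pts W)

/-- The algebra generated by the two coordinates. -/
def torsionOrder : Subalgebra (Rp p) (Tors W N → Qb) :=
  Algebra.adjoin (Rp p) {funT W N, funW W N}

variable {W p N}

/-- A function on a finite set with integral values is integral. -/
theorem isIntegral_pi {R : Type*} [CommRing R] {K : Type*} [CommRing K] [Algebra R K]
    {M : Type*} [Finite M] {f : M → K} (h : ∀ m, IsIntegral R (f m)) : IsIntegral R f := by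
  classical
  cases nonempty_fintype M
  choose g hg using h
  refine ⟨∏ m, g m, Polynomial.monic_prod_of_monic _ _ fun m _ => (hg m).1, funext fun x => ?_⟩
  rw [← Polynomial.aeval_def, map_prod, Finset.prod_apply, Pi.zero_apply]
  refine Finset.prod_eq_zero (Finset.mem_univ x) ?_
  rw [Polynomial.aeval_pi_apply₂, Polynomial.aeval_def]
  exact (hg x).2

variable (hp : p.Prime) (hp2 : p ≠ 2) (hgood : ¬ (p : ℤ) ∣ W.Δ) (hN : Odd N)
include hp hp2 hgood hN

/-- The coordinate algebra is finite over `ℤ₍ₚ₎`. -/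
theorem torsionOrder_finite [Finite (Tors W N)] : Module.Finite (Rp p) (torsionOrder W p N) := by
  refine Module.Finite.iff_fg.mpr (fg_adjoin_of_finite (Set.toFinite _) ?_)
  rintro f (rfl | rfl)
  · exact isIntegral_pi fun P => isIntegral_cT W hp hp2 hgood hN P
  · exact isIntegral_pi fun P => isIntegral_cW W hp hp2 hgood hN P

/-- The coordinates separate the torsion points. -/
theorem torsionOrder_separates (x y : Tors W N)
    (h : ∀ f ∈ torsionOrder W p N, f x = f y) : x = y :=
  Subtype.ext (Chart.eq_of_cT_cW (EQ W) (inChart W hp hp2 hgood hN x) (inChart W hp hp2 hgood hN y)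
    (h _ (Algebra.subset_adjoin (Set.mem_insert _ _)))
    (h _ (Algebra.subset_adjoin (Set.mem_insert_of_mem _ rfl))))

omit hp hp2 hgood hN in
theorem galois_vCoord (σ : GQ) (x y : Qb) :
    σ (Chart.vCoord (EQ W) x y) = Chart.vCoord (EQ W) (σ x) (σ y) := by
  simp [Chart.vCoord, WeierstrassCurve.map, map_ofNat]

omit hp hp2 hgood hN in
theorem galois_cT (σ : GQ) (P : Pts W) :
    Chart.cT (EQ W) (σ • P) = σ (Chart.cT (EQ W) P) := by
  rcases P with _ | ⟨x, y, h⟩
  · exact (map_zero σ).symm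
  · rw [Point.algEquiv_smul_def, Point.map_some]
    show σ x / Chart.vCoord (EQ W) (σ x) (σ y) = σ (x / Chart.vCoord (EQ W) x y)
    rw [map_div₀, galois_vCoord]

omit hp hp2 hgood hN in
theorem galois_cW (σ : GQ) (P : Pts W) :
    Chart.cW (EQ W) (σ • P) = σ (Chart.cW (EQ W) P) := by
  rcases P with _ | ⟨x, y, h⟩
  · exact (map_zero σ).symm
  · rw [Point.algEquiv_smul_def, Point.map_some]
    show 1 / Chart.vCoord (EQ W) (σ x) (σ y) = σ (1 / Chart.vCoord (EQ W) x y)
    rw [map_div₀, galois_vCoord, map_one]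

omit hp hp2 hgood hN in
/-- The coordinate algebra consists of equivariant functions. -/
theorem torsionOrder_equivariant (f : Tors W N → Qb) (hf : f ∈ torsionOrder W p N) :
    IsEquivariant (fun (σ : GQ) (x : Tors W N) => σ • x) f := by
  intro σ P
  induction hf using Algebra.adjoin_induction with
  | mem f hf =>
    rcases hf with rfl | rfl
    · exact galois_cT σ (P : Pts W)
    · exact galois_cW σ (P : Pts W)
  | algebraMap r =>
    show algebraMap (Rp p) Qb r = σ (algebraMap (Rp p) Qb r)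
    rw [IsScalarTower.algebraMap_apply (Rp p) ℚ Qb]
    exact (σ.commutes _).symm
  | add f g _ _ hf hg => simp [Pi.add_apply, hf, hg]
  | mul f g _ _ hf hg => simp [Pi.mul_apply, hf, hg]

omit hp2 hgood hN in
/-- Every maximal ideal of `ℤ₍ₚ₎` contains `p`. -/
theorem natCast_mem_of_isMaximal (I : Ideal (Rp p)) [hI : I.IsMaximal] : (p : Rp p) ∈ I := by
  by_contra hpn
  obtain ⟨r, i, hi, hri⟩ := hI.exists_inv hpn
  set k : ℤ := ((r : ℚ).den : ℤ) - (r : ℚ).num * p with hk
  have hkI : (k : Rp p) ∈ I := by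
    have h1 : (k : Rp p) = ((r : ℚ).den : Rp p) * i := Subtype.ext (by
      have h2 := congrArg Subtype.val hri
      push_cast at h2
      simp only [hk]
      push_cast
      rw [← Rat.mul_den_eq_num (r : ℚ)]
      linear_combination -((r : ℚ).den : ℚ) * h2)
    rw [h1]
    exact I.mul_mem_left _ hi
  have hkp : ¬ p ∣ k.natAbs := fun h => by
    have h1 : (p : ℤ) ∣ ((r : ℚ).den : ℤ) := by
      have := dvd_add (Int.natCast_dvd.mpr h) (dvd_mul_left (p : ℤ) (r : ℚ).num)
      simpa [hk] using this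
    exact hp.ne_one (Nat.Coprime.eq_one_of_dvd (Nat.Coprime.symm r.2)
      (Int.natCast_dvd_natCast.mp h1))
  have hk0 : (k.natAbs : ℚ) ≠ 0 := Nat.cast_ne_zero.mpr fun h => hkp (h ▸ dvd_zero p)
  refine hI.ne_top (Ideal.eq_top_of_isUnit_mem _ hkI ?_)
  rcases Int.natAbs_eq k with h | h <;> rw [h] <;>
  · simp only [Int.cast_neg, Int.cast_natCast, IsUnit.neg_iff]
    exact IsUnit.of_mul_eq_one (⟨_, natCast_inv_mem_Rp hp hkp⟩ : Rp p)
      (Subtype.ext (by push_cast; exact mul_inv_cancel₀ hk0))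

/-- The local statement behind comultiplication: at every point and place over `p` some function
of the tensor square, not vanishing modulo the place, multiplies both translated coordinates
into the tensor square. -/
theorem exists_denominator (z : Tors W N × Tors W N) {A : ValuationSubring Qb}
    (hA : A.LiesOverPrime p) :
    ∃ s ∈ (mulMap (torsionOrder W p N).val (torsionOrder W p N).val).range,
      s z ∉ A.nonunits ∧
      s * (fun z : Tors W N × Tors W N => funT W N (z.1 + z.2)) ∈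
        (mulMap (torsionOrder W p N).val (torsionOrder W p N).val).range ∧
      s * (fun z : Tors W N × Tors W N => funW W N (z.1 + z.2)) ∈
        (mulMap (torsionOrder W p N).val (torsionOrder W p N).val).range := by
  classical
  set O := torsionOrder W p N with hO
  set B := (mulMap O.val O.val).range
  let Z := Tors W N × Tors W N
  let T : O := ⟨funT W N, Algebra.subset_adjoin (Set.mem_insert _ _)⟩
  let U : O := ⟨funW W N, Algebra.subset_adjoin (Set.mem_insert_of_mem _ rfl)⟩
  let t₁ : Z → Qb := fun z => funT W N z.1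
  let w₁ : Z → Qb := fun z => funW W N z.1
  let t₂ : Z → Qb := fun z => funT W N z.2
  let w₂ : Z → Qb := fun z => funW W N z.2
  let gT : Z → Qb := fun z => funT W N (z.1 + z.2)
  let gW : Z → Qb := fun z => funW W N (z.1 + z.2)
  have ht₁ : t₁ ∈ B := ⟨T ⊗ₜ 1, funext fun z => by simp [t₁, T]⟩
  have hw₁ : w₁ ∈ B := ⟨U ⊗ₜ 1, funext fun z => by simp [w₁, U]⟩
  have ht₂ : t₂ ∈ B := ⟨1 ⊗ₜ T, funext fun z => by simp [t₂, T]⟩
  have hw₂ : w₂ ∈ B := ⟨1 ⊗ₜ U, funext fun z => by simp [w₂, U]⟩
  obtain ⟨a₀, b₀, c₀, ha₀, hb₀, hc₀⟩ := coords_mem_Rp W hp hp2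
  let a : Z → Qb := algebraMap (Rp p) (Z → Qb) a₀
  let b : Z → Qb := algebraMap (Rp p) (Z → Qb) b₀
  let c : Z → Qb := algebraMap (Rp p) (Z → Qb) c₀
  have haB : a ∈ B := B.algebraMap_mem a₀
  have hbB : b ∈ B := B.algebraMap_mem b₀
  have hcB : c ∈ B := B.algebraMap_mem c₀
  let ev : Z → (Z → Qb) →+* Qb := fun z' => Pi.evalRingHom (fun _ : Z => Qb) z'
  have hea : ∀ z', ev z' a = Chart.coA (EQ W) := fun z' => ha₀
  have heb : ∀ z', ev z' b = Chart.coB (EQ W) := fun z' => hb₀
  have hec : ∀ z', ev z' c = Chart.coC (EQ W) := fun z' => hc₀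
  have hden : Chart.den a b c t₁ w₁ t₂ w₂ ∈ B := by
    simp only [Chart.den, pow_two]
    exact sub_mem (sub_mem (sub_mem (one_mem B) (mul_mem haB (mul_mem ht₂ ht₂)))
      (mul_mem (mul_mem hbB ht₂) (add_mem hw₁ hw₂)))
      (mul_mem hcB (add_mem (add_mem (mul_mem hw₁ hw₁) (mul_mem hw₁ hw₂)) (mul_mem hw₂ hw₂)))
  have hnum : Chart.num a b t₁ w₁ t₂ w₂ ∈ B := by
    simp only [Chart.num, pow_two]
    exact add_mem (add_mem (add_mem (add_mem (mul_mem ht₁ ht₁) (mul_mem ht₁ ht₂))
      (mul_mem ht₂ ht₂)) (mul_mem (mul_mem haB (add_mem ht₁ ht₂)) hw₁))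
      (mul_mem hbB (mul_mem hw₁ hw₁))
  -- coordinates in `A`
  have hmem : ∀ P : Tors W N, funT W N P ∈ A ∧ funW W N P ∈ A := fun P =>
    ⟨(inChart_and_mem W hp hp2 hgood hN hA P).2.1, (inChart_and_mem W hp hp2 hgood hN hA P).2.2⟩
  let aA : A := ⟨Chart.coA (EQ W), ha₀ ▸ algebraMap_Rp_mem hA hp a₀⟩
  let bA : A := ⟨Chart.coB (EQ W), hb₀ ▸ algebraMap_Rp_mem hA hp b₀⟩
  let cA : A := ⟨Chart.coC (EQ W), hc₀ ▸ algebraMap_Rp_mem hA hp c₀⟩
  let tA₁ : A := ⟨t₁ z, (hmem _).1⟩
  let wA₁ : A := ⟨w₁ z, (hmem _).2⟩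
  let tA₂ : A := ⟨t₂ z, (hmem _).1⟩
  let wA₂ : A := ⟨w₂ z, (hmem _).2⟩
  let gTA : A := ⟨gT z, (hmem _).1⟩
  let gWA : A := ⟨gW z, (hmem _).2⟩
  let r := IsLocalRing.residue A
  -- choice of the direction
  obtain ⟨α, β, αA, βA, hαB, hβB, hαz, hβz, hdir, hres, hne⟩ :
      ∃ (α β : Z → Qb) (αA βA : A), α ∈ B ∧ β ∈ B ∧ α z = αA ∧ β z = βA ∧
        (∀ z' : Z, (α z' = t₂ z' - t₁ z' ∧ β z' = w₂ z' - w₁ z') ∨
          (α z' = Chart.den (Chart.coA (EQ W)) (Chart.coB (EQ W)) (Chart.coC (EQ W))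
              (t₁ z') (w₁ z') (t₂ z') (w₂ z') ∧
            β z' = Chart.num (Chart.coA (EQ W)) (Chart.coB (EQ W))
              (t₁ z') (w₁ z') (t₂ z') (w₂ z'))) ∧
        (r αA = r tA₂ - r tA₁ ∧ r βA = r wA₂ - r wA₁ ∨
          (r tA₂ = r tA₁ ∧ r wA₂ = r wA₁ ∧
            r αA = Chart.den (r aA) (r bA) (r cA) (r tA₁) (r wA₁) (r tA₂) (r wA₂) ∧
            r βA = Chart.num (r aA) (r bA) (r tA₁) (r wA₁) (r tA₂) (r wA₂))) ∧
        (r αA ≠ 0 ∨ r βA ≠ 0) := by
    by_cases h : r tA₂ = r tA₁ ∧ r wA₂ = r wA₁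
    · refine ⟨Chart.den a b c t₁ w₁ t₂ w₂, Chart.num a b t₁ w₁ t₂ w₂,
        Chart.den aA bA cA tA₁ wA₁ tA₂ wA₂, Chart.num aA bA tA₁ wA₁ tA₂ wA₂,
        hden, hnum, ?_, ?_, fun z' => Or.inr ⟨?_, ?_⟩,
        Or.inr ⟨h.1, h.2, Chart.map_den _ _ _ r _ _ _ _, Chart.map_num _ _ r _ _ _ _⟩, ?_⟩
      · show ev z (Chart.den a b c t₁ w₁ t₂ w₂) = A.subtype (Chart.den aA bA cA tA₁ wA₁ tA₂ wA₂)
        rw [Chart.map_den, Chart.map_den, hea, heb, hec]; rfl
      · show ev z (Chart.num a b t₁ w₁ t₂ w₂) = A.subtype (Chart.num aA bA tA₁ wA₁ tA₂ wA₂)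
        rw [Chart.map_num, Chart.map_num, hea, heb]; rfl
      · show ev z' (Chart.den a b c t₁ w₁ t₂ w₂) = _
        rw [Chart.map_den, hea, heb, hec]; rfl
      · show ev z' (Chart.num a b t₁ w₁ t₂ w₂) = _
        rw [Chart.map_num, hea, heb]; rfl
      · rw [Chart.map_den, Chart.map_num, h.1, h.2]
        refine Chart.den_num_ne_zero _ _ _ ?_ ?_
        · have := ECReduction.natCast_residue_ne_zero hA hp (n := 2)
            (fun h => hp2 ((Nat.prime_dvd_prime_iff_eq hp Nat.prime_two).mp h))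
          simpa using this
        · rw [← Chart.map_eqn, show Chart.eqn aA bA cA tA₁ wA₁ = 0 from
            A.subtype_injective (by
              rw [Chart.map_eqn, map_zero]
              exact Chart.eqn_cT_cW (EQ W) two_ne_zero_Qb (inChart W hp hp2 hgood hN z.1)),
            map_zero]
    · refine ⟨t₂ - t₁, w₂ - w₁, tA₂ - tA₁, wA₂ - wA₁, sub_mem ht₂ ht₁, sub_mem hw₂ hw₁,
        rfl, rfl, fun z' => Or.inl ⟨rfl, rfl⟩, Or.inl ⟨map_sub r _ _, map_sub r _ _⟩, ?_⟩
      rw [map_sub, map_sub, sub_ne_zero, sub_ne_zero]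
      exact not_and_or.mp h
  let s : Z → Qb := Chart.c₃ a b c α β
  let d : Z → Qb := Chart.c₂ a b c α β t₁ w₁
  have hsB : s ∈ B := by
    simp only [s, Chart.c₃, pow_succ, pow_zero, one_mul]
    exact neg_mem (add_mem (add_mem (add_mem (mul_mem (mul_mem hαB hαB) hαB)
      (mul_mem (mul_mem haB (mul_mem hαB hαB)) hβB))
      (mul_mem (mul_mem hbB hαB) (mul_mem hβB hβB)))
      (mul_mem hcB (mul_mem (mul_mem hβB hβB) hβB)))
  have hdB : d ∈ B := by
    have hn : ∀ n : ℕ, (n : Z → Qb) ∈ B := fun n => natCast_mem B n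
    simp only [d, Chart.c₂, pow_two]
    exact neg_mem (add_mem (add_mem (add_mem (mul_mem (mul_mem (hn 3) ht₁) (mul_mem hαB hαB))
      (mul_mem haB (add_mem (mul_mem (mul_mem hαB hαB) hw₁)
        (mul_mem (mul_mem (mul_mem (hn 2) ht₁) hαB) hβB))))
      (mul_mem hbB (add_mem (mul_mem (mul_mem (mul_mem (hn 2) hαB) hβB) hw₁)
        (mul_mem ht₁ (mul_mem hβB hβB)))))
      (mul_mem (mul_mem (mul_mem (hn 3) hcB) hw₁) (mul_mem hβB hβB)))
  have hid : ∀ z' : Z,
      s z' * gT z' = α z' * d z' + s z' * (t₂ z' - 2 * t₁ z') ∧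
      s z' * gW z' = β z' * d z' + s z' * (w₂ z' - 2 * w₁ z') := by
    intro z'
    obtain ⟨hT, hW⟩ := Chart.chord_identity (EQ W) two_ne_zero_Qb
      (inChart W hp hp2 hgood hN z'.1) (inChart W hp hp2 hgood hN z'.2)
      (inChart W hp hp2 hgood hN (z'.1 + z'.2)) (α := α z') (β := β z') (hdir z')
    have hs : s z' = Chart.c₃ (Chart.coA (EQ W)) (Chart.coB (EQ W)) (Chart.coC (EQ W))
        (α z') (β z') := by
      show ev z' s = _
      rw [Chart.map_c₃, hea, heb, hec]; rfl
    have hd' : d z' = Chart.c₂ (Chart.coA (EQ W)) (Chart.coB (EQ W)) (Chart.coC (EQ W))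
        (α z') (β z') (t₁ z') (w₁ z') := by
      show ev z' d = _
      rw [Chart.map_c₂, hea, heb, hec]; rfl
    rw [hs, hd']
    simp only [gT, gW, t₁, w₁, t₂, w₂, funT, funW, Submodule.coe_add]
    constructor
    · linear_combination -hT
    · linear_combination -hW
  have h2t : ∀ f ∈ B, 2 * f ∈ B := fun f hf => mul_mem (natCast_mem B 2) hf
  refine ⟨s, hsB, ?_, ?_, ?_⟩
  · intro hs
    have hsz : s z = A.subtype (Chart.c₃ aA bA cA αA βA) := by
      show ev z s = _
      rw [Chart.map_c₃, Chart.map_c₃, hea, heb, hec]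
      show Chart.c₃ _ _ _ (α z) (β z) = _
      rw [hαz, hβz]; rfl
    have hres0 : r (Chart.c₃ aA bA cA αA βA) = 0 := by
      rw [IsLocalRing.residue_eq_zero_iff]
      refine ValuationSubring.coe_mem_nonunits_iff.mp ?_
      rw [hsz] at hs
      exact hs
    rw [Chart.map_c₃] at hres0
    obtain ⟨hT, hW⟩ := hid z
    have hdA : d z = A.subtype (Chart.c₂ aA bA cA αA βA tA₁ wA₁) := by
      show ev z d = _
      rw [Chart.map_c₂, Chart.map_c₂, hea, heb, hec]
      show Chart.c₂ _ _ _ (α z) (β z) (t₁ z) (w₁ z) = _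
      rw [hαz, hβz]; rfl
    rw [hsz, hdA, hαz] at hT
    rw [hsz, hdA, hβz] at hW
    have hT' : Chart.c₃ aA bA cA αA βA * (-gTA - 2 * tA₁ + tA₂) =
        -αA * Chart.c₂ aA bA cA αA βA tA₁ wA₁ := by
      apply A.subtype_injective
      simp only [map_mul, map_add, map_sub, map_neg, map_ofNat]
      show _ * (-gT z - 2 * t₁ z + t₂ z) = _
      simp only [ValuationSubring.subtype_apply] at hT ⊢
      linear_combination -hT
    have hW' : Chart.c₃ aA bA cA αA βA * (-gWA - 2 * wA₁ + wA₂) =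
        -βA * Chart.c₂ aA bA cA αA βA tA₁ wA₁ := by
      apply A.subtype_injective
      simp only [map_mul, map_add, map_sub, map_neg, map_ofNat]
      show _ * (-gW z - 2 * w₁ z + w₂ z) = _
      simp only [ValuationSubring.subtype_apply] at hW ⊢
      linear_combination -hW
    have hTr := congrArg r hT'
    have hWr := congrArg r hW'
    rw [map_mul, map_mul, map_neg r αA, Chart.map_c₃, Chart.map_c₂] at hTr
    rw [map_mul, map_mul, map_neg r βA, Chart.map_c₃, Chart.map_c₂] at hWr
    have heq : ∀ (P : Tors W N) (t w : A), (t : Qb) = funT W N P → (w : Qb) = funW W N P →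
        Chart.eqn (r aA) (r bA) (r cA) (r t) (r w) = 0 := by
      intro P t w ht hw
      rw [← Chart.map_eqn, show Chart.eqn aA bA cA t w = 0 from A.subtype_injective (by
        rw [Chart.map_eqn, map_zero]
        show Chart.eqn _ _ _ (t : Qb) (w : Qb) = 0
        rw [ht, hw]
        exact Chart.eqn_cT_cW (EQ W) two_ne_zero_Qb (inChart W hp hp2 hgood hN P)), map_zero]
    exact Chart.c₃_ne_zero (r aA) (r bA) (r cA) hne (heq z.1 tA₁ wA₁ rfl rfl)
      (heq z.2 tA₂ wA₂ rfl rfl) hres hTr hWr hres0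
  · have hfun : s * gT = α * d + s * (t₂ - 2 * t₁) := funext fun z' => (hid z').1
    show s * gT ∈ B
    rw [hfun]
    exact add_mem (mul_mem hαB hdB) (mul_mem hsB (sub_mem ht₂ (h2t _ ht₁)))
  · have hfun : s * gW = β * d + s * (w₂ - 2 * w₁) := funext fun z' => (hid z').2
    show s * gW ∈ B
    rw [hfun]
    exact add_mem (mul_mem hβB hdB) (mul_mem hsB (sub_mem hw₂ (h2t _ hw₁)))

/-- The coordinates of a sum lie in the tensor square. -/
theorem coord_add_mem [Finite (Tors W N)] :
    (fun z : Tors W N × Tors W N => funT W N (z.1 + z.2)) ∈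
        (mulMap (torsionOrder W p N).val (torsionOrder W p N).val).range ∧
      (fun z : Tors W N × Tors W N => funW W N (z.1 + z.2)) ∈
        (mulMap (torsionOrder W p N).val (torsionOrder W p N).val).range := by
  classical
  set O := torsionOrder W p N
  set B := (mulMap O.val O.val).range
  set gT : Tors W N × Tors W N → Qb := fun z => funT W N (z.1 + z.2)
  set gW : Tors W N × Tors W N → Qb := fun z => funW W N (z.1 + z.2)
  have := torsionOrder_finite hp hp2 hgood hN
  have : Module.Finite (Rp p) B := Module.Finite.of_surjective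
    (mulMap O.val O.val).rangeRestrict.toLinearMap (mulMap O.val O.val).rangeRestrict_surjective
  have : Algebra.IsIntegral (Rp p) B := Algebra.IsIntegral.of_finite _ _
  let D : Ideal B :=
    { carrier := {s | (s : Tors W N × Tors W N → Qb) * gT ∈ B ∧ (s : _ → Qb) * gW ∈ B}
      add_mem' := fun {x y} hx hy => by
        simp only [Set.mem_ofPred_eq, AddMemClass.coe_add, add_mul]
        exact ⟨add_mem hx.1 hy.1, add_mem hx.2 hy.2⟩
      zero_mem' := by simp [zero_mem]
      smul_mem' := fun r x hx => by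
        simp only [Set.mem_ofPred_eq, smul_eq_mul, MulMemClass.coe_mul, mul_assoc]
        exact ⟨mul_mem r.2 hx.1, mul_mem r.2 hx.2⟩ }
  suffices hD : D = ⊤ by
    have h1 : (1 : B) ∈ D := hD ▸ Submodule.mem_top
    have h2 : ((1 : B) : Tors W N × Tors W N → Qb) * gT ∈ B ∧
        ((1 : B) : Tors W N × Tors W N → Qb) * gW ∈ B := h1
    simpa using h2
  by_contra hD
  obtain ⟨m, hm, hDm⟩ := D.exists_le_maximal hD
  cases nonempty_fintype (Tors W N)
  let ev : Tors W N × Tors W N → (B →+* Qb) := fun z =>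
    (Pi.evalRingHom (fun _ => Qb) z).comp B.subtype
  obtain ⟨z, hz⟩ : ∃ z, RingHom.ker (ev z) ≤ m := by
    by_contra hcon
    push Not at hcon
    choose f hf hfm using fun z => SetLike.not_le_iff_exists.mp (hcon z)
    have h0 : ∏ z, f z = 0 := Subtype.ext (funext fun z => by
      rw [SubmonoidClass.coe_finsetProd, Finset.prod_apply, ZeroMemClass.coe_zero,
        Pi.zero_apply]
      exact Finset.prod_eq_zero (Finset.mem_univ z) (hf z))
    obtain ⟨z, -, hz⟩ := (hm.isPrime.prod_mem_iff).mp (h0 ▸ m.zero_mem)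
    exact hfm z hz
  have hcomap : (m.map (ev z).rangeRestrict).comap (ev z).rangeRestrict = m := by
    rw [Ideal.comap_map_of_surjective _ (ev z).rangeRestrict_surjective, sup_eq_left]
    intro x hx
    refine hz (RingHom.mem_ker.mpr ?_)
    exact congr(($(Ideal.mem_bot.mp hx) : Qb))
  obtain ⟨A, hA₁, hA₂⟩ := (m.map (ev z).rangeRestrict).image_subset_nonunits_valuationSubring
    fun h => hm.ne_top (by rw [← hcomap, h, Ideal.comap_top])
  have hnon : ∀ x ∈ m, ev z x ∈ A.nonunits := fun x hx =>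
    hA₂ ⟨(ev z).rangeRestrict x, Ideal.mem_map_of_mem _ hx, rfl⟩
  have hpm : (p : B) ∈ m := by
    have hmax : (m.comap (algebraMap (Rp p) B)).IsMaximal :=
      Ideal.isMaximal_comap_of_isIntegral_of_isMaximal m
    rw [← map_natCast (algebraMap (Rp p) B) p, ← Ideal.mem_comap]
    exact natCast_mem_of_isMaximal hp _
  have hAp : A.LiesOverPrime p := by
    have := hnon _ hpm
    rwa [map_natCast] at this
  obtain ⟨s, hsB, hsz, hsT, hsW⟩ := exists_denominator hp hp2 hgood hN z hAp
  exact hsz (hnon ⟨s, hsB⟩ (hDm ⟨hsT, hsW⟩))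

/-- The coordinate algebra is closed under comultiplication. -/
theorem torsionOrder_comul [Finite (Tors W N)] (f : Tors W N → Qb)
    (hf : f ∈ torsionOrder W p N) :
    (fun z : Tors W N × Tors W N => f (z.1 + z.2)) ∈
      (mulMap (torsionOrder W p N).val (torsionOrder W p N).val).range := by
  induction hf using Algebra.adjoin_induction with
  | mem f hf =>
    rcases hf with rfl | rfl
    · exact (coord_add_mem hp hp2 hgood hN).1
    · exact (coord_add_mem hp hp2 hgood hN).2
  | algebraMap r => exact Subalgebra.algebraMap_mem _ r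
  | add f g _ _ hf hg => exact add_mem hf hg
  | mul f g _ _ hf hg => exact mul_mem hf hg

/-- **`E[N]` has a finite flat model over `ℤ₍ₚ₎`** for `p` odd of good reduction and `N` odd. -/
theorem hasFlatModel_torsion :
    HasFlatModel p (fun (σ : GQ) (x : Tors W N) => σ • x) := by
  have hΔ : W.Δ ≠ 0 := fun h => hgood (h ▸ dvd_zero _)
  have hN0 : N ≠ 0 := fun h => by simp [h] at hN
  have : Finite (Tors W N) := Nat.finite_of_card_ne_zero (by
    rw [ECTorsion.card_torsionBy_int W hΔ hN0]; exact pow_ne_zero _ hN0)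
  exact ⟨inferInstance, torsionOrder W p N,
    { finite := torsionOrder_finite hp hp2 hgood hN
      equivariant := fun f hf => torsionOrder_equivariant f hf
      separates := torsionOrder_separates hp hp2 hgood hN
      comul := torsionOrder_comul hp hp2 hgood hN }⟩

end Fermat.Agent.CurveTate
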