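import Fermat.Agent.CurveTate.Basic
import Fermat.Agent.CurveTate.Chart
import Fermat.Agent.FlatModels.Functions
import Fermat.Agent.ECReduction.Galois
import Mathlib.RingTheory.Valuation.LocalSubring

/-!
# Torsion of odd order in the chart, at a prime of good reduction

For `p` odd, `p ∤ Δ` and `N` odd, all `N`-torsion points lie in the chart `(x/v, 1/v)` and both
coordinates are integral over `ℤ₍ₚ₎`.
-/

set_option autoImplicit false

noncomputable section

namespace Fermat.Agent.CurveTate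

open WeierstrassCurve WeierstrassCurve.Affine
open Fermat.Agent.FlatModels (Rp)
open scoped WeierstrassCurve.Affine

local notation "Qb" => AlgebraicClosure ℚ
local notation "GQ" => (AlgebraicClosure ℚ ≃ₐ[ℚ] AlgebraicClosure ℚ)

variable (W : WeierstrassCurve ℤ) {p N : ℕ}

/-- The curve over `ℚ̄`. -/
abbrev EQ : WeierstrassCurve.Affine (AlgebraicClosure ℚ) :=
  (W.map (Int.castRingHom ℚ))⁄(AlgebraicClosure ℚ)

theorem two_ne_zero_Qb : (2 : Qb) ≠ 0 := two_ne_zero

theorem natCast_inv_mem_Rp (hp : p.Prime) {m : ℕ} (hm : ¬ p ∣ m) : ((m : ℚ)⁻¹) ∈ Rp p := by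
  rcases Nat.eq_zero_or_pos m with rfl | hm0
  · exact absurd (dvd_zero p) hm
  show ((m : ℚ)⁻¹).den.Coprime p
  rw [Rat.inv_natCast_den_of_pos hm0]
  exact ((hp.coprime_iff_not_dvd).mpr hm).symm

theorem coords_mem_Rp (hp : p.Prime) (hp2 : p ≠ 2) :
    ∃ a b c : Rp p, algebraMap (Rp p) Qb a = Chart.coA (EQ W) ∧
      algebraMap (Rp p) Qb b = Chart.coB (EQ W) ∧ algebraMap (Rp p) Qb c = Chart.coC (EQ W) := by
  have h2 : ¬ p ∣ 2 := fun h => hp2 ((Nat.prime_dvd_prime_iff_eq hp Nat.prime_two).mp h)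
  have h4 : ¬ p ∣ 4 := fun h => h2 (hp.dvd_of_dvd_pow (show p ∣ 2 ^ 2 from h))
  have hh : ((2 : ℚ)⁻¹) ∈ Rp p := by simpa using natCast_inv_mem_Rp hp h2
  have hq : ((4 : ℚ)⁻¹) ∈ Rp p := by simpa using natCast_inv_mem_Rp hp h4
  refine ⟨⟨(W.a₂ : ℚ) + (W.a₁ : ℚ) ^ 2 * (4 : ℚ)⁻¹,
      add_mem (intCast_mem _ _) (mul_mem (pow_mem (intCast_mem _ _) _) hq)⟩,
    ⟨(W.a₄ : ℚ) + (W.a₁ : ℚ) * (W.a₃ : ℚ) * (2 : ℚ)⁻¹,
      add_mem (intCast_mem _ _) (mul_mem (mul_mem (intCast_mem _ _) (intCast_mem _ _)) hh)⟩,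
    ⟨(W.a₆ : ℚ) + (W.a₃ : ℚ) ^ 2 * (4 : ℚ)⁻¹,
      add_mem (intCast_mem _ _) (mul_mem (pow_mem (intCast_mem _ _) _) hq)⟩, ?_, ?_, ?_⟩ <;>
  · rw [IsScalarTower.algebraMap_apply (Rp p) ℚ Qb,
      show algebraMap (Rp p) ℚ = (Rp p).subtype from rfl, Subring.coe_subtype]
    simp [Chart.coA, Chart.coB, Chart.coC, WeierstrassCurve.map, div_eq_mul_inv]

theorem algebraMap_Rp_mem {A : ValuationSubring Qb} (hA : A.LiesOverPrime p) (hp : p.Prime)
    (r : Rp p) : algebraMap (Rp p) Qb r ∈ A := by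
  show algebraMap ℚ Qb (r : ℚ) ∈ A
  have hd : ¬ p ∣ (r : ℚ).den := fun h =>
    hp.ne_one (Nat.Coprime.eq_one_of_dvd (Nat.Coprime.symm r.2) h)
  have hinv : (((r : ℚ).den : Qb))⁻¹ ∈ A := by
    have hmem : ((r : ℚ).den : Qb) ∉ A.nonunits := fun h =>
      hd ((GaloisBasics.natCast_mem_nonunits_iff hA hp _).mp h)
    rw [A.mem_nonunits_iff_or, not_or, not_not] at hmem
    exact hmem.2
  rw [← Rat.num_div_den (r : ℚ), map_div₀, map_intCast, map_natCast, div_eq_mul_inv]
  exact mul_mem (intCast_mem _ _) hinv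

/-- Integral at every place over `p` implies integral over `ℤ₍ₚ₎`. -/
theorem isIntegral_of_mem (hp : p.Prime) {x : Qb}
    (h : ∀ A : ValuationSubring Qb, A.LiesOverPrime p → x ∈ A) : IsIntegral (Rp p) x := by
  by_contra hx
  let R : Subring Qb := (integralClosure (Rp p) Qb).toSubring
  have : IsIntegrallyClosedIn R Qb := by
    refine Subring.isIntegrallyClosedIn_iff.mpr fun {y} hy => ?_
    obtain ⟨f, hf, hfy⟩ := hy
    exact isIntegral_trans (R := Rp p) (A := integralClosure (Rp p) Qb) y ⟨f, hf, hfy⟩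
  obtain ⟨V, hRV, hxV⟩ := Subring.exists_le_valuationSubring_of_isIntegrallyClosedIn (R := R)
    (show x ∉ R from hx)
  have hRp : ∀ r : Rp p, algebraMap (Rp p) Qb r ∈ V := fun r => hRV isIntegral_algebraMap
  refine hxV ?_
  by_cases hpV : V.LiesOverPrime p
  · exact h V hpV
  have hpinv : ((p : Qb))⁻¹ ∈ V := by
    rw [ValuationSubring.LiesOverPrime, V.mem_nonunits_iff_or, not_or, not_not] at hpV
    exact hpV.2
  have hnat : ∀ m : ℕ, ((m : Qb))⁻¹ ∈ V := by
    intro m
    induction m using Nat.recOnMul with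
    | zero => simp
    | one => simp
    | prime l hl =>
      by_cases hlp : l = p
      · rw [hlp]; exact hpinv
      · have := hRp ⟨_, natCast_inv_mem_Rp (p := p) hp (m := l)
          (fun hd => hlp ((Nat.prime_dvd_prime_iff_eq hp hl).mp hd).symm)⟩
        have e : algebraMap ℚ Qb ((l : ℚ)⁻¹) = ((l : Qb))⁻¹ := by simp
        rw [← e]
        exact this
    | mul a b ha hb => rw [Nat.cast_mul, mul_inv]; exact mul_mem ha hb
  let g : ℚ →+* V := (algebraMap ℚ Qb).codRestrict V fun r => by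
    rw [← Rat.num_div_den r, map_div₀, map_intCast, map_natCast, div_eq_mul_inv]
    exact mul_mem (intCast_mem _ _) (hnat _)
  obtain ⟨f, hf, hfx⟩ :=
    ((AlgebraicClosure.isAlgebraic ℚ).isAlgebraic x).isIntegral
  have hVx : IsIntegral V x := ⟨f.map g, hf.map g, by
    rw [Polynomial.eval₂_map]
    exact hfx⟩
  obtain ⟨y, hy⟩ := IsIntegrallyClosed.algebraMap_eq_of_integral (K := Qb) hVx
  exact hy ▸ y.2

variable (hp : p.Prime) (hp2 : p ≠ 2) (hgood : ¬ (p : ℤ) ∣ W.Δ) (hN : Odd N)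
include hp hp2 hgood hN

/-- Odd order torsion lies in the chart, with integral coordinates at every place over `p`. -/
theorem inChart_and_mem {A : ValuationSubring Qb} (hA : A.LiesOverPrime p) (P : Tors W N) :
    Chart.InChart (EQ W) (P : Pts W) ∧ Chart.cT (EQ W) (P : Pts W) ∈ A ∧
      Chart.cW (EQ W) (P : Pts W) ∈ A := by
  classical
  obtain ⟨a, b, c, ha, hb, hc⟩ := coords_mem_Rp W hp hp2
  have haA : Chart.coA (EQ W) ∈ A := ha ▸ algebraMap_Rp_mem hA hp a
  have hbA : Chart.coB (EQ W) ∈ A := hb ▸ algebraMap_Rp_mem hA hp b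
  have hcA : Chart.coC (EQ W) ∈ A := hc ▸ algebraMap_Rp_mem hA hp c
  have hNP : N • (P : Pts W) = 0 := by
    rw [← natCast_zsmul]; exact (Submodule.mem_torsionBy_iff _ _).mp P.2
  have h2k : (2 : IsLocalRing.ResidueField A) ≠ 0 := by
    have := ECReduction.natCast_residue_ne_zero hA hp (n := 2)
      (fun h => hp2 ((Nat.prime_dvd_prime_iff_eq hp Nat.prime_two).mp h))
    simpa using this
  have hEF := ECReduction.curveRed W A
  have hΔ' := ECReduction.redCurve_Δ_ne_zero W hA hp hgood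
  have hspec := ECReduction.redHomOfGood_spec hEF hΔ' (P : Pts W)
  have hQN : N • ECReduction.redHomOfGood hEF hΔ' (P : Pts W) = 0 := by
    rw [← map_nsmul, hNP, map_zero]
  generalize ECReduction.redHomOfGood hEF hΔ' (P : Pts W) = Q at hspec hQN
  generalize (P : Pts W) = P' at hspec
  rcases P' with _ | ⟨x, y, h⟩
  · exact ⟨trivial, A.zero_mem, A.zero_mem⟩
  by_cases hx : x ∈ A
  · rcases hspec with ⟨hx', -⟩ | ⟨α, β, hn, hxr, hyr, rfl⟩
    · exact absurd hx hx'
    have hy := hyr.mem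
    set v := Chart.vCoord (EQ W) x y with hv
    have h2A : ((2 : Qb))⁻¹ ∈ A := by
      have := algebraMap_Rp_mem hA hp ⟨_, natCast_inv_mem_Rp (p := p) hp (m := 2)
        (fun h => hp2 ((Nat.prime_dvd_prime_iff_eq hp Nat.prime_two).mp h))⟩
      have e : algebraMap ℚ Qb (((2 : ℕ) : ℚ)⁻¹) = (2 : Qb)⁻¹ := by simp [map_ofNat]
      rw [← e]
      exact this
    have hv2 : ECReduction.Red (IsLocalRing.residue A) (2 * v)
        (β - (ECReduction.redCurve W A).negY α β) := by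
      refine (hyr.sub (hEF.negY hxr hyr)).congr_left ?_
      rw [hv, Chart.vCoord, negY]
      field_simp
      ring
    have hne : β - (ECReduction.redCurve W A).negY α β ≠ 0 := by
      intro h0
      have h2Q : 2 • (Point.some α β hn : (ECReduction.redCurve W A).Point) = 0 := by
        rw [two_nsmul]
        exact Point.add_of_Y_eq rfl (sub_eq_zero.mp h0)
      have h1 : Nat.gcd N 2 • (Point.some α β hn : (ECReduction.redCurve W A).Point) = 0 :=
        gcd_nsmul_eq_zero.mpr ⟨hQN, h2Q⟩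
      rw [Nat.Coprime.gcd_eq_one (Nat.coprime_two_right.mpr hN), one_nsmul] at h1
      exact Point.some_ne_zero hn h1
    have hval := hv2.valuation_eq_one hne
    have hv0 : v ≠ 0 := fun h0 => by simp [h0] at hval
    have hvinv : v⁻¹ ∈ A := by
      rw [show v⁻¹ = 2 * (2 * v)⁻¹ by field_simp]
      refine mul_mem (natCast_mem A 2) ?_
      rw [← A.valuation_le_one_iff, map_inv₀, hval, inv_one]
    refine ⟨hv0, ?_, ?_⟩
    · show x / v ∈ A
      rw [div_eq_mul_inv]
      exact mul_mem hx hvinv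
    · show 1 / v ∈ A
      rw [one_div]
      exact hvinv
  · have hx0 : x ≠ 0 := fun h0 => hx (h0 ▸ A.zero_mem)
    have hu : x⁻¹ ∈ A.nonunits := A.inv_mem_nonunits_iff.mpr (Or.inr hx)
    have huA : x⁻¹ ∈ A := A.nonunits_le hu
    set v := Chart.vCoord (EQ W) x y
    have hsq := Chart.vCoord_sq (EQ W) two_ne_zero_Qb h.1
    set e := 1 + (Chart.coA (EQ W) + Chart.coB (EQ W) * x⁻¹ + Chart.coC (EQ W) * x⁻¹ ^ 2) * x⁻¹
    have hsq' : v ^ 2 = x ^ 3 * e := by
      rw [show v ^ 2 = _ from hsq]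
      simp only [e]
      field_simp
      ring
    have he : A.valuation e = 1 := by
      have h1 : A.valuation
          ((Chart.coA (EQ W) + Chart.coB (EQ W) * x⁻¹ + Chart.coC (EQ W) * x⁻¹ ^ 2) * x⁻¹) < 1 := by
        rw [map_mul]
        exact lt_of_le_of_lt (mul_le_of_le_one_left' ((A.valuation_le_one_iff _).mpr
          (add_mem (add_mem haA (mul_mem hbA huA)) (mul_mem hcA (pow_mem huA 2)))))
          (A.mem_nonunits_iff.mp hu)
      rw [A.valuation.map_add_eq_of_lt_left (by rwa [map_one]), map_one]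
    have he0 : e ≠ 0 := fun h0 => by simp [h0] at he
    have hv0 : v ≠ 0 := fun h0 => by
      rw [h0, zero_pow two_ne_zero, zero_eq_mul] at hsq'
      exact hsq'.elim (pow_ne_zero 3 hx0) he0
    have key : ∀ z : Qb, z ^ 2 ∈ A → z ∈ A := fun z hz => by
      rw [← A.valuation_le_one_iff] at hz ⊢
      rwa [map_pow, pow_le_one_iff two_ne_zero] at hz
    have heinv : e⁻¹ ∈ A := by rw [← A.valuation_le_one_iff, map_inv₀, he, inv_one]
    refine ⟨hv0, key _ ?_, key _ ?_⟩
    · show (x / v) ^ 2 ∈ A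
      rw [show (x / v) ^ 2 = x⁻¹ * e⁻¹ by rw [div_pow, hsq']; field_simp]
      exact mul_mem huA heinv
    · show (1 / v) ^ 2 ∈ A
      rw [show (1 / v) ^ 2 = x⁻¹ ^ 3 * e⁻¹ by rw [div_pow, hsq', one_pow]; field_simp]
      exact mul_mem (pow_mem huA 3) heinv

theorem inChart (P : Tors W N) : Chart.InChart (EQ W) (P : Pts W) := by
  obtain ⟨A, hA⟩ := GaloisBasics.exists_liesOverPrime hp
  exact (inChart_and_mem W hp hp2 hgood hN hA P).1

theorem isIntegral_cT (P : Tors W N) : IsIntegral (Rp p) (Chart.cT (EQ W) (P : Pts W)) :=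
  isIntegral_of_mem hp fun _ hA => (inChart_and_mem W hp hp2 hgood hN hA P).2.1

theorem isIntegral_cW (P : Tors W N) : IsIntegral (Rp p) (Chart.cW (EQ W) (P : Pts W)) :=
  isIntegral_of_mem hp fun _ hA => (inChart_and_mem W hp hp2 hgood hN hA P).2.2

end Fermat.Agent.CurveTate
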