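import Fermat.Agent.CurveTate.Conditions
import Fermat.Agent.CurveTate.FlatTate
import Fermat.Agent.FlatModels.BaseChangeFinite
import Fermat.Agent.TWAssembly.BaseChange
import Fermat.Agent.TWHyp.Residual

/-!
# The Tate module over a coefficient ring, and its residual representation
-/

set_option autoImplicit false

noncomputable section

open scoped TensorProduct
open IsLocalRing Polynomial

namespace Fermat.Agent.CurveTate

local notation "GQ" => (AlgebraicClosure ℚ ≃ₐ[ℚ] AlgebraicClosure ℚ)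

variable (W : WeierstrassCurve ℤ) (p : ℕ) [Fact p.Prime]

/-- There is at most one homomorphism from `ℤ_p` to a ring in which `p = 0`. -/
theorem padicInt_hom_ext {R : Type} [CommRing R] (hR : (p : R) = 0) (f g : ℤ_[p] →+* R) :
    f = g := by
  refine RingHom.ext fun z => ?_
  have h : z - (z.appr 1 : ℤ_[p]) ∈ Ideal.span {(p : ℤ_[p])} := by
    simpa using PadicInt.appr_spec 1 z
  obtain ⟨w, hw⟩ := Ideal.mem_span_singleton'.mp h
  rw [← sub_add_cancel z (z.appr 1 : ℤ_[p]), ← hw]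
  simp [hR]

variable {O : Type} [CommRing O] [IsLocalRing O]

/-- A homomorphism from `ℤ_p` to a local ring with `p` in the maximal ideal is local. -/
theorem isLocalHom_padic (hp : (p : O) ∈ maximalIdeal O) (f : ℤ_[p] →+* O) : IsLocalHom f := by
  refine ⟨fun a ha => ?_⟩
  by_contra h
  have h' : a ∈ maximalIdeal ℤ_[p] := h
  rw [PadicInt.maximalIdeal_eq_span_p] at h'
  obtain ⟨w, rfl⟩ := Ideal.mem_span_singleton'.mp h'
  rw [map_mul, map_natCast] at ha
  exact hp (isUnit_of_mul_isUnit_right ha)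

variable (ι : ℤ_[p] →+* O) (hι : IsLocalHom ι)

/-- `T_p W ⊗ O`. -/
abbrev tateRepOver (hΔ : W.Δ ≠ 0) : GaloisRepAdic O := (tateRep W p hΔ).baseChangeAlong ι hι

/-- The determinant of `T_p W ⊗ O` is cyclotomic. -/
theorem detIsCyclotomic_tateRepOver (hΔ : W.Δ ≠ 0) :
    (tateRepOver W p ι hι hΔ).DetIsCyclotomic p :=
  TWAssembly.detIsCyclotomic_baseChange ι hι (detIsCyclotomic_tateRep W p hΔ)

/-- `T_p W ⊗ O` is unramified at a good prime `q ≠ p`. -/
theorem isUnramifiedAt_tateRepOver (hΔ : W.Δ ≠ 0) {q : ℕ} (hq : q.Prime) (hqp : q ≠ p)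
    (hgood : ¬ (q : ℤ) ∣ W.Δ) : (tateRepOver W p ι hι hΔ).IsUnramifiedAt q :=
  TWAssembly.isUnramifiedAt_baseChange ι hι (isUnramifiedAt_tateRep W p hΔ hq hqp hgood)

/-- Inertia away from `p` acts unipotently on `T_p W ⊗ O` for a semistable model. -/
theorem isUnipotentOnInertiaAt_tateRepOver (hΔ : W.Δ ≠ 0) (hW : W.IsSemistableModel) {q : ℕ}
    (hq : q.Prime) (hqp : q ≠ p) : (tateRepOver W p ι hι hΔ).IsUnipotentOnInertiaAt q :=
  TWAssembly.isUnipotentOnInertiaAt_baseChange ι hι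
    (isUnipotentOnInertiaAt_tateRep W p hΔ hW hq hqp)

/-- `T_p W ⊗ O` is flat at an odd prime `p` of good reduction. -/
theorem isFlatAt_tateRepOver [Finite (ResidueField O)] (hΔ : W.Δ ≠ 0) (hp2 : p ≠ 2)
    (hgood : ¬ (p : ℤ) ∣ W.Δ) : (tateRepOver W p ι hι hΔ).IsFlatAt p :=
  FlatModels.isFlatAt_baseChangeAlong ι hι inferInstance (isFlatAt_tateRep W p hΔ hp2 hgood)

/-- Frobenius at a good prime `q ≠ p` has characteristic polynomial `X² - a_q X + q`. -/
theorem frobenius_tateRepOver (hΔ : W.Δ ≠ 0) {q : ℕ} (hq : q.Prime) (hqp : q ≠ p)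
    (hgood : W.IsGoodPrimeFor q) {A : ValuationSubring (AlgebraicClosure ℚ)}
    (hA : A.LiesOverPrime q) {φ : GQ} (hφ : A.IsFrobeniusAt φ q) :
    (tateRepOver W p ι hι hΔ).trace φ = (W.apOfModel q : O) ∧
      LinearMap.det ((tateRepOver W p ι hι hΔ).ρ φ) = (q : O) ∧
      LinearMap.charpoly ((tateRepOver W p ι hι hΔ).ρ φ) =
        X ^ 2 - C (W.apOfModel q : O) * X + C (q : O) := by
  obtain ⟨ht, hd, hc⟩ := frobenius_tateRep W p hΔ hq hqp hgood hA hφ
  let _ : Algebra ℤ_[p] O := ι.toAlgebra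
  refine ⟨?_, ?_, ?_⟩
  · change LinearMap.trace O _ (((tateRep W p hΔ).ρ φ).baseChange O) = _
    rw [LinearMap.trace_baseChange,
      show LinearMap.trace ℤ_[p] _ ((tateRep W p hΔ).ρ φ) = (W.apOfModel q : ℤ_[p]) from ht,
      map_intCast]
  · change LinearMap.det (((tateRep W p hΔ).ρ φ).baseChange O) = _
    rw [LinearMap.det_baseChange, hd, map_natCast]
  · change LinearMap.charpoly (((tateRep W p hΔ).ρ φ).baseChange O) = _
    rw [LinearMap.charpoly_baseChange, hc]
    simp

/-- The residual representation of `T_p W ⊗ O` is `W[p] ⊗ k`. -/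
theorem residual_tateRepOver_isEquiv [Algebra (ZMod p) (ResidueField O)] (hΔ : W.Δ ≠ 0) :
    (tateRepOver W p ι hι hΔ).residual.IsEquiv
      ((TWHyp.residualRep W hΔ p).baseChange (ResidueField O)) := by
  obtain ⟨b⟩ := exists_tateBasis W p hΔ
  obtain ⟨g, b', hb⟩ : ∃ (g : ℤ_[p] →+* ZMod p)
      (b' : Module.Basis (Fin 2) (ZMod p) (TWHyp.residualRep W hΔ p).V), ∀ σ : GQ,
      LinearMap.toMatrix b' b' ((TWHyp.residualRep W hΔ p).ρ σ) =
        (LinearMap.toMatrix b b (tateAction W p σ)).map g := by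
    have key : ∀ N : ℕ, p ^ 1 = N → ∃ (g : ℤ_[p] →+* ZMod N)
        (b' : Module.Basis (Fin 2) (ZMod N) (Tors W N)), ∀ σ : GQ,
        LinearMap.toMatrix b' b' (TWHyp.torsionEnd W N σ) =
          (LinearMap.toMatrix b b (tateAction W p σ)).map g := by
      rintro _ rfl
      obtain ⟨b', -, h⟩ := exists_levelBasis hΔ b 1
      exact ⟨PadicInt.toZModPow 1, b', h⟩
    exact key p (pow_one p)
  let _ : Algebra ℤ_[p] O := ι.toAlgebra
  have hk : (p : ResidueField O) = 0 := by
    rw [← map_natCast (algebraMap (ZMod p) (ResidueField O)), ZMod.natCast_self, map_zero]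
  have hcomp := padicInt_hom_ext p hk ((residue O).comp ι)
    ((algebraMap (ZMod p) (ResidueField O)).comp g)
  let bT : Module.Basis (Fin 2) ℤ_[p] (tateRep W p hΔ).V := b
  let b₁ := Algebra.TensorProduct.basis (ResidueField O) (Algebra.TensorProduct.basis O bT)
  let b₂ := Algebra.TensorProduct.basis (ResidueField O) b'
  let e : (ResidueField O ⊗[O] (O ⊗[ℤ_[p]] (tateRep W p hΔ).V)) ≃ₗ[ResidueField O]
      (ResidueField O ⊗[ZMod p] (TWHyp.residualRep W hΔ p).V) := b₁.equiv b₂ (Equiv.refl _)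
  refine ⟨⟨e, fun σ x => ?_⟩⟩
  have hmat : LinearMap.toMatrix b₁ b₁
        ((((tateRep W p hΔ).ρ σ).baseChange O).baseChange (ResidueField O)) =
      LinearMap.toMatrix b₂ b₂
        (((TWHyp.residualRep W hΔ p).ρ σ).baseChange (ResidueField O)) := by
    rw [LinearMap.toMatrix_baseChange, LinearMap.toMatrix_baseChange,
      LinearMap.toMatrix_baseChange, hb σ, Matrix.map_map, Matrix.map_map]
    ext i j
    exact DFunLike.congr_fun hcomp (LinearMap.toMatrix b b (tateAction W p σ) i j)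
  have hcomm : e.toLinearMap ∘ₗ
        (((tateRep W p hΔ).ρ σ).baseChange O).baseChange (ResidueField O) =
      ((TWHyp.residualRep W hΔ p).ρ σ).baseChange (ResidueField O) ∘ₗ e.toLinearMap := by
    refine b₁.ext fun j => ?_
    rw [LinearMap.comp_apply, LinearMap.comp_apply, LinearEquiv.coe_coe]
    rw [show e (b₁ j) = b₂ j from Module.Basis.equiv_apply _ _ _ _]
    refine b₂.ext_elem fun i => ?_
    have h1 : ∀ y, b₂.repr (e y) i = b₁.repr y i := fun y => by
      simp [e, Module.Basis.equiv]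
    rw [h1, ← LinearMap.toMatrix_apply, hmat, LinearMap.toMatrix_apply]
  exact LinearMap.congr_fun hcomm x

end Fermat.Agent.CurveTate
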